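import Fermat.Agent.GRHProgressions.Psi
import Fermat.Agent.ExplicitFormula.Psi
import Fermat.Agent.Gallagher.Progressions
import Fermat.Agent.PrimeNumberTheorem.Progression

/-!
# Primes in progressions under the Riemann hypothesis

If every `L (s, χ)`, `χ` mod `q`, satisfies it then `ψ (x; q, a) = x / φ q + O (√x log² (q x))`
with an absolute constant, and the least prime `≡ a` is `O (φ q ² log⁴ (2 q))`.
-/

set_option autoImplicit false

noncomputable section

namespace FA.GRHProgressions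

open Finset
open DirichletCharacter (LFunction changeLevel)
open FA.DirichletHadamard (GRHFor)
open FA.Gallagher (psiChar twist primOf primOf_apply primOf_eq_one_iff)
open FA.RiemannMangoldt (xiFn xiFn_zero_strip xiFn_eq_zero_iff)
open scoped Real Chebyshev ArithmeticFunction.vonMangoldt

variable {q : ℕ} [NeZero q]

/-- The Riemann hypothesis for all the characters of the modulus `q`. -/
def GRHMod (q : ℕ) [NeZero q] : Prop := ∀ χ : DirichletCharacter ℂ q, GRHFor χ

theorem card_primeFactors_le (q : ℕ) [NeZero q] :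
    (q.primeFactors.card : ℝ) ≤ 2 * Real.log q := by
  have h : 2 ^ q.primeFactors.card ≤ q := (Finset.pow_card_le_prod _ (fun p => p) 2 fun p hp =>
    (Nat.prime_of_mem_primeFactors hp).two_le).trans
      (Nat.le_of_dvd (NeZero.pos q) (Nat.prod_primeFactors_dvd q))
  have h' := Real.log_le_log (by positivity) (show (2 : ℝ) ^ q.primeFactors.card ≤ q by
    exact_mod_cast h)
  rw [Real.log_pow] at h'
  nlinarith [Real.log_two_gt_d9, (Nat.cast_nonneg q.primeFactors.card : (0 : ℝ) ≤ _)]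

/-- The prime powers up to `N` not prime to `q`. -/
theorem sum_not_coprime (q : ℕ) [NeZero q] {N : ℕ} (hN : 1 ≤ N) :
    ∑ n ∈ (Icc 1 N).filter (fun n => ¬n.Coprime q), Λ n ≤
      q.primeFactors.card * Real.log N := by
  classical
  have hsub : ((Icc 1 N).filter fun n => ¬n.Coprime q ∧ IsPrimePow n) ⊆
      q.primeFactors.biUnion fun p => (Icc 1 (Nat.log p N)).image (p ^ ·) := fun n hn => by
    rw [mem_filter, mem_Icc] at hn
    obtain ⟨p, k, hp, hk, rfl⟩ := (isPrimePow_nat_iff _).1 hn.2.2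
    refine mem_biUnion.2 ⟨p, Nat.mem_primeFactors.2 ⟨hp, (Nat.Prime.dvd_iff_not_coprime hp).2
      fun h => hn.2.1 (h.pow_left k), NeZero.ne q⟩, mem_image.2 ⟨k, mem_Icc.2
        ⟨hk, Nat.le_log_of_pow_le hp.one_lt hn.1.2⟩, rfl⟩⟩
  rw [← Finset.sum_filter_of_ne (p := IsPrimePow) fun n _ hne =>
    ArithmeticFunction.vonMangoldt_ne_zero_iff.1 hne, Finset.filter_filter]
  refine (sum_le_sum_of_subset_of_nonneg hsub fun n _ _ =>
    ArithmeticFunction.vonMangoldt_nonneg).trans ?_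
  rw [sum_biUnion fun p hp p' hp' hne => disjoint_left.2 fun n hn hn' => ?_]
  swap
  · obtain ⟨i, hi, rfl⟩ := mem_image.1 hn
    obtain ⟨j, hj, he⟩ := mem_image.1 hn'
    have e := congrArg Nat.minFac he
    rw [(Nat.prime_of_mem_primeFactors hp').pow_minFac (by have := (mem_Icc.1 hj).1; omega),
      (Nat.prime_of_mem_primeFactors hp).pow_minFac (by have := (mem_Icc.1 hi).1; omega)] at e
    exact hne e.symm
  rw [← nsmul_eq_mul]
  refine sum_le_card_nsmul _ _ _ fun p hp => ?_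
  have hpp := Nat.prime_of_mem_primeFactors hp
  rw [sum_image fun a _ b _ h => Nat.pow_right_injective hpp.two_le h]
  refine (sum_le_card_nsmul _ _ (Real.log p) fun k hk => ?_).trans ?_
  · rw [ArithmeticFunction.vonMangoldt_apply_pow (by have := (mem_Icc.1 hk).1; omega),
      ArithmeticFunction.vonMangoldt_apply_prime hpp]
  · rw [Nat.card_Icc, Nat.add_sub_cancel, nsmul_eq_mul, ← Real.log_pow]
    refine Real.log_le_log (pow_pos (Nat.cast_pos.2 hpp.pos) _) ?_
    exact_mod_cast Nat.pow_log_le_self p (by omega : N ≠ 0)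

theorem sum_not_coprime_real (q : ℕ) [NeZero q] {x : ℝ} (hx : 2 ≤ x) :
    ∑ n ∈ (Icc 1 ⌊x⌋₊).filter (fun n => ¬n.Coprime q), Λ n ≤
      4 * √x * Real.log (q * x) ^ 2 := by
  have hN : 1 ≤ ⌊x⌋₊ := Nat.le_floor (by push_cast; linarith)
  refine (sum_not_coprime q hN).trans ?_
  have hq : (1 : ℝ) ≤ q := Nat.one_le_cast.2 NeZero.one_le
  have h1 : Real.log q ≤ Real.log (q * x) :=
    Real.log_le_log (by linarith) (le_mul_of_one_le_right (by linarith) (by linarith))
  have h2 : Real.log (⌊x⌋₊ : ℝ) ≤ Real.log (q * x) := by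
    refine Real.log_le_log (Nat.cast_pos.2 hN) ((Nat.floor_le (by linarith)).trans ?_)
    exact le_mul_of_one_le_left (by linarith) hq
  have h3 : 0 ≤ Real.log (⌊x⌋₊ : ℝ) := Real.log_natCast_nonneg _
  have h4 : 1 ≤ √x := Real.one_le_sqrt.2 (by linarith)
  calc (q.primeFactors.card : ℝ) * Real.log ⌊x⌋₊
      ≤ 2 * Real.log (q * x) * Real.log (q * x) :=
        mul_le_mul ((card_primeFactors_le q).trans (by linarith)) h2 h3 (by linarith)
    _ ≤ 4 * 1 * Real.log (q * x) ^ 2 := by nlinarith [sq_nonneg (Real.log (q * x))]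
    _ ≤ _ := by gcongr

/-- Passing to the primitive character costs the prime powers not prime to `q`. -/
theorem norm_psiChar_sub_primOf (χ : DirichletCharacter ℂ q) (x : ℝ) :
    ‖psiChar χ x - psiChar (primOf χ).2 x‖ ≤
      ∑ n ∈ (Icc 1 ⌊x⌋₊).filter (fun n => ¬n.Coprime q), Λ n := by
  rw [psiChar, psiChar, ← sum_sub_distrib, sum_filter]
  refine (norm_sum_le _ _).trans (sum_le_sum fun n _ => ?_)
  rw [twist, twist, ← sub_mul, norm_mul, Complex.norm_real,
    Real.norm_of_nonneg ArithmeticFunction.vonMangoldt_nonneg]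
  by_cases h : n.Coprime q
  · rw [if_neg (not_not.2 h), primOf_apply χ h, sub_self, norm_zero, zero_mul]
  · rw [if_pos h, MulChar.map_nonunit χ fun h' => h ((ZMod.isUnit_iff_coprime n q).1 h'),
      zero_sub, norm_neg]
    exact mul_le_of_le_one_left ArithmeticFunction.vonMangoldt_nonneg
      ((primOf χ).2.norm_le_one _)

theorem grhFor_primOf {χ : DirichletCharacter ℂ q} (hχ : χ ≠ 1) [NeZero (primOf χ).1]
    (h : GRHFor χ) : GRHFor (primOf χ).2 := fun ρ hρ h0 h1 => by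
  refine h ρ ?_ h0 h1
  have e := DirichletCharacter.LFunction_changeLevel χ.conductor_dvd_level χ.primitiveCharacter
    (s := ρ) (Or.inl fun h' => hχ ((primOf_eq_one_iff χ).1 h'))
  rw [χ.changeLevel_primitiveCharacter] at e
  rw [e, show LFunction χ.primitiveCharacter ρ = 0 from hρ, zero_mul]

theorem exists_psiChar_nontrivial : ∃ C, 0 ≤ C ∧ ∀ (q : ℕ) [NeZero q]
    (χ : DirichletCharacter ℂ q), χ ≠ 1 → GRHFor χ → ∀ x : ℝ, 2 ≤ x →
      ‖psiChar χ x‖ ≤ C * √x * Real.log (q * x) ^ 2 := by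
  obtain ⟨C, hC, h⟩ := exists_psiChar_primitive
  refine ⟨C + 4, by positivity, fun q _ χ hχ hG x hx => ?_⟩
  have : NeZero (primOf χ).1 := ⟨χ.conductor_ne_zero⟩
  have h1 := h (primOf χ).1 (primOf χ).2 χ.primitiveCharacter_isPrimitive
    (fun e => hχ ((primOf_eq_one_iff χ).1 e)) (grhFor_primOf hχ hG) x hx
  have h2 := (norm_psiChar_sub_primOf χ x).trans (sum_not_coprime_real q hx)
  have hn : (1 : ℝ) ≤ (primOf χ).1 := Nat.one_le_cast.2 NeZero.one_le
  have hle : Real.log ((primOf χ).1 * x) ≤ Real.log (q * x) :=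
    Real.log_le_log (by positivity) (mul_le_mul_of_nonneg_right
      (Nat.cast_le.2 (Nat.le_of_dvd (NeZero.pos q) χ.conductor_dvd_level)) (by linarith))
  have h3 := pow_le_pow_left₀ (Real.log_nonneg (by nlinarith)) hle 2
  calc ‖psiChar χ x‖ ≤ ‖psiChar (primOf χ).2 x‖ + ‖psiChar χ x - psiChar (primOf χ).2 x‖ := by
        simpa [add_comm] using norm_add_le (psiChar χ x - psiChar (primOf χ).2 x)
          (psiChar (primOf χ).2 x)
    _ ≤ C * √x * Real.log (q * x) ^ 2 + 4 * √x * Real.log (q * x) ^ 2 :=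
        add_le_add (h1.trans (mul_le_mul_of_nonneg_left h3 (by positivity))) h2
    _ = _ := by ring

theorem xi_zero_re_le (q : ℕ) [NeZero q] (h : GRHFor (1 : DirichletCharacter ℂ q)) {ρ : ℂ}
    (hρ : xiFn ρ = 0) : ρ.re ≤ 1 / 2 := by
  obtain ⟨h0, h1⟩ := xiFn_zero_strip hρ
  have hne : ρ ≠ 1 := fun h' => by rw [h'] at h1; simp at h1
  have hz := (xiFn_eq_zero_iff h0 hne).1 hρ
  refine (h ρ ?_ h0 h1).le
  rw [show LFunction (1 : DirichletCharacter ℂ q) ρ =
    DirichletCharacter.LFunctionTrivChar q ρ from rfl,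
    DirichletCharacter.LFunctionTrivChar_eq_mul_riemannZeta hne, hz, mul_zero]

theorem exists_psiChar_trivial : ∃ C, 0 ≤ C ∧ ∀ (q : ℕ) [NeZero q],
    GRHFor (1 : DirichletCharacter ℂ q) → ∀ x : ℝ, 2 ≤ x →
      ‖psiChar (1 : DirichletCharacter ℂ q) x - (x : ℂ)‖ ≤
        C * √x * Real.log (q * x) ^ 2 := by
  by_cases H : ∀ ρ : ℂ, xiFn ρ = 0 → ρ.re ≤ 1 / 2
  swap
  · exact ⟨0, le_rfl, fun q _ hG => absurd (fun ρ hρ => xi_zero_re_le q hG hρ) H⟩
  obtain ⟨C, hC, h⟩ := FA.ExplicitFormula.exists_psi_bound le_rfl (by norm_num) H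
  refine ⟨C + 4, by positivity, fun q _ _ x hx => ?_⟩
  have h1 := h x hx
  rw [← Real.sqrt_eq_rpow] at h1
  have hq : (1 : ℝ) ≤ q := Nat.one_le_cast.2 NeZero.one_le
  have h2 : Real.log x ^ 2 ≤ Real.log (q * x) ^ 2 := pow_le_pow_left₀
    (Real.log_nonneg (by linarith)) (Real.log_le_log (by linarith)
      (le_mul_of_one_le_left (by linarith) hq)) 2
  have e : psiChar (1 : DirichletCharacter ℂ q) x - (ψ x : ℂ) =
      -((∑ n ∈ (Icc 1 ⌊x⌋₊).filter (fun n => ¬n.Coprime q), Λ n : ℝ) : ℂ) := by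
    rw [psiChar, Chebyshev.psi, show Ioc 0 ⌊x⌋₊ = Icc 1 ⌊x⌋₊ from by ext n; simp; omega,
      sum_filter, Complex.ofReal_sum, Complex.ofReal_sum, ← sum_sub_distrib, ← sum_neg_distrib]
    refine sum_congr rfl fun n _ => ?_
    rw [twist]
    by_cases hn : n.Coprime q
    · rw [if_neg (not_not.2 hn), MulChar.one_apply ((ZMod.isUnit_iff_coprime n q).2 hn)]
      simp
    · rw [if_pos hn, MulChar.map_nonunit _ fun h' => hn ((ZMod.isUnit_iff_coprime n q).1 h')]
      simp
  have h3 := sum_not_coprime_real q hx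
  calc ‖psiChar (1 : DirichletCharacter ℂ q) x - (x : ℂ)‖
      ≤ ‖psiChar (1 : DirichletCharacter ℂ q) x - (ψ x : ℂ)‖ + ‖((ψ x : ℂ)) - (x : ℂ)‖ :=
        norm_sub_le_norm_sub_add_norm_sub _ _ _
    _ ≤ 4 * √x * Real.log (q * x) ^ 2 + C * (√x * Real.log (q * x) ^ 2) := by
        refine add_le_add ?_ ?_
        · rw [e, norm_neg, Complex.norm_real, Real.norm_of_nonneg
            (sum_nonneg fun n _ => ArithmeticFunction.vonMangoldt_nonneg)]
          exact h3
        · rw [← Complex.ofReal_sub, Complex.norm_real, Real.norm_eq_abs]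
          exact h1.trans (by gcongr)
    _ = _ := by ring

/-- Orthogonality. -/
theorem totient_mul_psiClass {a : ZMod q} (ha : IsUnit a) (x : ℝ) :
    ((q.totient : ℝ) * PNT.psiClass a x : ℝ) =
      ∑ χ : DirichletCharacter ℂ q, χ a⁻¹ * psiChar χ x := by
  have hφ : (q.totient : ℂ) ≠ 0 := Nat.cast_ne_zero.2 (Nat.totient_pos.2 (NeZero.pos q)).ne'
  simp only [PNT.psiClass, psiChar, mul_sum]
  rw [sum_comm, Complex.ofReal_sum]
  refine sum_congr rfl fun n _ => ?_
  push_cast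
  rw [ArithmeticFunction.vonMangoldt.residueClass_apply ha n, ← mul_assoc,
    mul_inv_cancel₀ hφ, one_mul]
  refine sum_congr rfl fun χ _ => ?_
  rw [twist, mul_assoc]

/-- **`ψ (x; q, a) = x / φ q + O (√x log² (q x))`, `O` absolute.** -/
theorem exists_psiClass : ∃ C, 0 ≤ C ∧ ∀ (q : ℕ) [NeZero q], GRHMod q →
    ∀ a : ZMod q, IsUnit a → ∀ x : ℝ, 2 ≤ x →
      |PNT.psiClass a x - x / q.totient| ≤ C * √x * Real.log (q * x) ^ 2 := by
  classical
  obtain ⟨C₁, h1, hne⟩ := exists_psiChar_nontrivial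
  obtain ⟨C₂, h2, htriv⟩ := exists_psiChar_trivial
  refine ⟨C₁ + C₂, by positivity, fun q _ hG a ha x hx => ?_⟩
  obtain ⟨E, hE⟩ : ∃ E, E = (C₁ + C₂) * √x * Real.log (q * x) ^ 2 := ⟨_, rfl⟩
  have hφ : (0 : ℝ) < q.totient := Nat.cast_pos.2 (Nat.totient_pos.2 (NeZero.pos q))
  rw [← hE]
  refine le_of_mul_le_mul_left ?_ hφ
  rw [← abs_of_pos hφ, ← abs_mul, abs_of_pos hφ, mul_sub, mul_div_cancel₀ _ hφ.ne',
    ← Real.norm_eq_abs, ← Complex.norm_real, Complex.ofReal_sub, totient_mul_psiClass ha,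
    show (x : ℂ) = ∑ χ : DirichletCharacter ℂ q, if χ = 1 then (x : ℂ) else 0 by simp,
    ← sum_sub_distrib]
  refine (norm_sum_le _ _).trans ((sum_le_card_nsmul _ _ E fun χ _ => ?_).trans (le_of_eq ?_))
  · rw [hE]
    have hs : 0 ≤ √x * Real.log (q * x) ^ 2 := by positivity
    by_cases hχ : χ = 1
    · subst hχ
      have hau : IsUnit a⁻¹ := IsUnit.of_mul_eq_one a (ZMod.inv_mul_of_unit a ha)
      rw [if_pos rfl, MulChar.one_apply hau, one_mul]
      refine (htriv q (hG 1) x hx).trans ?_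
      nlinarith
    · rw [if_neg hχ, sub_zero, norm_mul]
      refine (mul_le_of_le_one_left (norm_nonneg _) (χ.norm_le_one _)).trans ?_
      refine (hne q χ hχ (hG χ) x hx).trans ?_
      nlinarith
  · rw [card_univ, ← Nat.card_eq_fintype_card,
      DirichletCharacter.card_eq_totient_of_hasEnoughRootsOfUnity, nsmul_eq_mul]

/-- **The same for `θ (x; q, a)`.** -/
theorem exists_thetaClass : ∃ C, 0 ≤ C ∧ ∀ (q : ℕ) [NeZero q], GRHMod q →
    ∀ a : ZMod q, IsUnit a → ∀ x : ℝ, 2 ≤ x →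
      |PNT.thetaClass a x - x / q.totient| ≤ C * √x * Real.log (q * x) ^ 2 := by
  obtain ⟨C, hC, h⟩ := exists_psiClass
  obtain ⟨D, hD⟩ := Chebyshev.psi_sub_theta_le_mul_sqrt
  refine ⟨C + 4 * max D 0, by positivity, fun q _ hG a ha x hx => ?_⟩
  have h1 := abs_le.1 (h q hG a ha x hx)
  have h2 := PNT.thetaClass_le_psiClass a x
  have h3 := PNT.psiClass_sub_thetaClass_le a x
  have h4 := hD x
  have hl := (log_mul_facts q hx).2.2
  have h5 : D * √x ≤ 4 * max D 0 * √x * Real.log (q * x) ^ 2 := by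
    calc D * √x ≤ max D 0 * √x * (4 * (1 / 2) ^ 2) := by
          rw [show (4 : ℝ) * (1 / 2) ^ 2 = 1 by norm_num, mul_one]
          exact mul_le_mul_of_nonneg_right (le_max_left _ _) (Real.sqrt_nonneg x)
      _ ≤ max D 0 * √x * (4 * Real.log (q * x) ^ 2) := by gcongr
      _ = _ := by ring
  rw [abs_le]
  constructor <;> linarith

/-- **The least prime in a progression.** -/
theorem exists_least_prime : ∃ C, 0 < C ∧ ∀ (q : ℕ) [NeZero q], GRHMod q →
    ∀ a : ZMod q, IsUnit a → ∃ p : ℕ, p.Prime ∧ (p : ZMod q) = a ∧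
      (p : ℝ) ≤ C * (q.totient : ℝ) ^ 2 * Real.log (2 * q) ^ 4 := by
  obtain ⟨C, hC, h⟩ := exists_thetaClass
  obtain ⟨r, hr⟩ : ∃ r, r = 3000 * C + 4 := ⟨_, rfl⟩
  refine ⟨r ^ 4, by rw [hr]; positivity, fun q _ hG a ha => ?_⟩
  obtain ⟨L, hL⟩ : ∃ L, L = Real.log (2 * q) := ⟨_, rfl⟩
  obtain ⟨φ, hφ⟩ : ∃ φ : ℝ, φ = q.totient := ⟨_, rfl⟩
  rw [← hL, ← hφ]
  have hq : (1 : ℝ) ≤ q := Nat.one_le_cast.2 NeZero.one_le
  have hφ1 : 1 ≤ φ := hφ ▸ Nat.one_le_cast.2 (Nat.totient_pos.2 (NeZero.pos q))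
  have hφq : φ ≤ q := hφ ▸ Nat.cast_le.2 q.totient_le
  have hL2 : 0.69 ≤ L := by
    rw [hL]
    linarith [Real.log_le_log two_pos (show (2 : ℝ) ≤ 2 * q by linarith), Real.log_two_gt_d9]
  have hr4 : 4 ≤ r := by rw [hr]; linarith
  obtain ⟨x, hx⟩ : ∃ x, x = r ^ 4 * φ ^ 2 * L ^ 4 := ⟨_, rfl⟩
  rw [← hx]
  have hsx : √x = r ^ 2 * φ * L ^ 2 := by
    rw [hx, show r ^ 4 * φ ^ 2 * L ^ 4 = (r ^ 2 * φ * L ^ 2) ^ 2 by ring,
      Real.sqrt_sq (by positivity)]
  have hx2 : 2 ≤ x := by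
    calc (2 : ℝ) ≤ 4 ^ 4 * 1 ^ 2 * 0.69 ^ 4 := by norm_num
      _ ≤ _ := by rw [hx]; gcongr
  have hlog : Real.log (q * x) ≤ 24 * √r * L := by
    have hqL : Real.log q ≤ L := by
      rw [hL]
      exact Real.log_le_log (by linarith) (by linarith)
    have hφL : Real.log φ ≤ L := (Real.log_le_log (by linarith) hφq).trans hqL
    have hlL : Real.log L ≤ L := (Real.log_le_sub_one_of_pos (by linarith)).trans (by linarith)
    have hlr : Real.log r ≤ 2 * √r := by
      have := Real.log_le_sub_one_of_pos (Real.sqrt_pos.2 (show 0 < r by linarith))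
      rw [Real.log_sqrt (by linarith)] at this
      linarith
    have hsr : 2 ≤ √r := Real.le_sqrt_of_sq_le (by linarith)
    rw [hx, Real.log_mul (by positivity) (by positivity),
      Real.log_mul (by positivity) (by positivity), Real.log_mul (by positivity) (by positivity),
      Real.log_pow, Real.log_pow, Real.log_pow]
    push_cast
    nlinarith [mul_le_mul_of_nonneg_left hL2 (show 0 ≤ √r by linarith)]
  have hpos : 0 < PNT.thetaClass a x := by
    refine lt_of_lt_of_le ?_ (show x / φ - C * √x * Real.log (q * x) ^ 2 ≤ _ by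
      have := (abs_le.1 (h q hG a ha x hx2)).1
      rw [← hφ] at this
      linarith)
    have hl0 : 0 ≤ Real.log (q * x) := Real.log_nonneg (by nlinarith)
    have hsq : Real.log (q * x) ^ 2 ≤ 576 * r * L ^ 2 := by
      refine (pow_le_pow_left₀ hl0 hlog 2).trans (le_of_eq ?_)
      rw [mul_pow, mul_pow, Real.sq_sqrt (by linarith)]
      ring
    have hx' : x / φ = r ^ 2 * φ * L ^ 2 * (r ^ 2 * L ^ 2) := by
      rw [hx]
      field_simp
    rw [sub_pos, hx', hsx]
    refine (mul_le_mul_of_nonneg_left hsq (by positivity)).trans_lt ?_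
    calc C * (r ^ 2 * φ * L ^ 2) * (576 * r * L ^ 2)
        = r ^ 2 * φ * L ^ 2 * (r * (576 * C) * L ^ 2) := by ring
      _ < r ^ 2 * φ * L ^ 2 * (r * r * L ^ 2) := by gcongr; rw [hr]; linarith
      _ = _ := by ring
  by_contra hno
  push Not at hno
  refine hpos.ne' ?_
  rw [PNT.thetaClass]
  refine sum_eq_zero fun p hp => ?_
  obtain ⟨h1, h2, h3⟩ := mem_filter.1 hp
  have := hno p h2 h3
  linarith [(Nat.cast_le.2 (mem_Icc.1 h1).2).trans (Nat.floor_le (show 0 ≤ x by linarith))]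

end FA.GRHProgressions

end
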