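import Fermat.Agent.GRHProgressions.LogDeriv
import Mathlib.NumberTheory.Harmonic.Bounds

/-!
# Sums over the zeros, uniformly in the modulus

`∑_{|γ| ≤ N} m / (1 + |γ|) = O (log² (q (N + 3)))` and
`∑_{|γ| ≥ N} m / (1 + |γ|)² = O (log (q (N + 3)) / (N + 1))`.
-/

set_option autoImplicit false

noncomputable section

namespace FA.GRHProgressions

open Complex
open FA.DirichletZeroCount FA.DirichletLandau FA.DirichletHadamard
open scoped Real

variable {q : ℕ} [NeZero q] {χ : DirichletCharacter ℂ q}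

/-- `m / (1 + (|γ| - k)²)`. -/
def foldTerm (χ : DirichletCharacter ℂ q) (k : ℕ) (ρ : ℂ) : ℝ :=
  (lMult χ ρ : ℝ) / (1 + (|ρ.im| - k) ^ 2)

theorem foldTerm_nonneg (χ : DirichletCharacter ℂ q) (k : ℕ) (ρ : ℂ) : 0 ≤ foldTerm χ k ρ := by
  rw [foldTerm]
  positivity

theorem mult_le_foldTerm (χ : DirichletCharacter ℂ q) (ρ : ℂ) :
    (lMult χ ρ : ℝ) ≤ 2 * foldTerm χ ⌊|ρ.im|⌋₊ ρ := by
  have h1 := Nat.floor_le (abs_nonneg ρ.im)
  have h2 := Nat.lt_floor_add_one |ρ.im|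
  rw [foldTerm, mul_div_assoc', le_div_iff₀ (by positivity), mul_comm (2 : ℝ)]
  refine mul_le_mul_of_nonneg_left ?_ (Nat.cast_nonneg _)
  nlinarith

theorem exists_fold_weight : ∃ C, 0 ≤ C ∧ ∀ (q : ℕ) [NeZero q]
    (χ : DirichletCharacter ℂ q), χ.IsPrimitive → χ ≠ 1 → ∀ (k : ℕ) (S : Finset ℂ),
      ∑ ρ ∈ S, foldTerm χ k ρ ≤ C * qLog q k := by
  obtain ⟨C, hC, h⟩ := exists_zero_weight
  refine ⟨2 * C, by positivity, fun q _ χ hp hχ k S => ?_⟩
  obtain ⟨hs1, ht1⟩ := h q χ hp hχ (k : ℝ)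
  obtain ⟨hs2, ht2⟩ := h q χ hp hχ (-(k : ℝ))
  rw [show qLog q (-(k : ℝ)) = qLog q k by rw [qLog, qLog, abs_neg]] at ht2
  refine (Finset.sum_le_sum (g := fun ρ => wTerm χ k ρ + wTerm χ (-(k : ℝ)) ρ)
    fun ρ _ => ?_).trans ?_
  · have n1 := wTerm_nonneg χ (k : ℝ) ρ
    have n2 := wTerm_nonneg χ (-(k : ℝ)) ρ
    rw [foldTerm]
    rcases le_total 0 ρ.im with hi | hi
    · rw [abs_of_nonneg hi, ← wTerm]
      linarith
    · rw [abs_of_nonpos hi, show (-ρ.im - (k : ℝ)) ^ 2 = (ρ.im - -(k : ℝ)) ^ 2 by ring, ← wTerm]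
      linarith
  · rw [Finset.sum_add_distrib]
    linarith [hs1.sum_le_tsum S fun ρ _ => wTerm_nonneg χ _ ρ,
      hs2.sum_le_tsum S fun ρ _ => wTerm_nonneg χ _ ρ]

/-- **The zeros up to `N`.** -/
theorem exists_head_sum : ∃ C, 0 ≤ C ∧ ∀ (q : ℕ) [NeZero q]
    (χ : DirichletCharacter ℂ q), χ.IsPrimitive → χ ≠ 1 → ∀ (N : ℕ) (S : Finset ℂ),
      (∀ ρ ∈ S, |ρ.im| ≤ N) →
        ∑ ρ ∈ S, (lMult χ ρ : ℝ) / (1 + |ρ.im|) ≤ C * qLog q N ^ 2 := by
  obtain ⟨C, hC, h⟩ := exists_fold_weight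
  refine ⟨6 * C, by positivity, fun q _ χ hp hχ N S hS => ?_⟩
  obtain ⟨c, hc⟩ : ∃ c : ℕ → ℂ → ℝ, c = fun (k : ℕ) ρ => 2 / (k + 1 : ℝ) * foldTerm χ k ρ :=
    ⟨_, rfl⟩
  have hc0 : ∀ (k : ℕ) (ρ : ℂ), 0 ≤ c k ρ := fun k ρ => by
    rw [hc]
    exact mul_nonneg (by positivity) (foldTerm_nonneg χ k ρ)
  refine (Finset.sum_le_sum (g := fun ρ => ∑ k ∈ Finset.range (N + 1), c k ρ)
    fun ρ hρ => ?_).trans ?_
  · refine le_trans ?_ (Finset.single_le_sum (fun k _ => hc0 k ρ) (a := ⌊|ρ.im|⌋₊)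
      (Finset.mem_range.2 (Nat.lt_succ_of_le (Nat.floor_le_of_le (hS ρ hρ)))))
    have h1 := Nat.floor_le (abs_nonneg ρ.im)
    have h2 := mult_le_foldTerm χ ρ
    have h3 := foldTerm_nonneg χ ⌊|ρ.im|⌋₊ ρ
    rw [hc]
    simp only
    rw [div_mul_eq_mul_div]
    exact div_le_div₀ (mul_nonneg zero_le_two h3) h2 (by positivity) (by linarith)
  rw [Finset.sum_comm]
  have hq : (1 : ℝ) ≤ q := Nat.one_le_cast.2 NeZero.one_le
  refine (Finset.sum_le_sum (g := fun k : ℕ => 2 * C * qLog q N * (((k + 1 : ℕ) : ℝ))⁻¹)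
    fun k hk => ?_).trans ?_
  · rw [hc, ← Finset.mul_sum]
    refine (mul_le_mul_of_nonneg_left (h q χ hp hχ k S) (by positivity)).trans ?_
    have hk' : (k : ℝ) ≤ N := Nat.cast_le.2 (Nat.lt_succ_iff.1 (Finset.mem_range.1 hk))
    have hl : qLog q k ≤ qLog q N := by
      refine Real.log_le_log (by positivity) ?_
      rw [Nat.abs_cast, Nat.abs_cast]
      exact mul_le_mul_of_nonneg_left (by linarith) (by linarith)
    push_cast
    rw [div_eq_mul_inv]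
    nlinarith [mul_le_mul_of_nonneg_left hl (mul_nonneg hC
      (inv_nonneg.2 (show (0 : ℝ) ≤ k + 1 by positivity)))]
  · rw [← Finset.mul_sum]
    have hh : ∑ k ∈ Finset.range (N + 1), (((k + 1 : ℕ) : ℝ))⁻¹ ≤ 1 + Real.log (N + 1) := by
      have := harmonic_le_one_add_log (N + 1)
      simp only [harmonic] at this
      push_cast at this
      simpa using this
    obtain ⟨q1, q2⟩ := qLog_ge q N
    have hl : Real.log ((N : ℝ) + 1) ≤ qLog q N := by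
      refine Real.log_le_log (by positivity) ?_
      rw [Nat.abs_cast]
      nlinarith [(Nat.cast_nonneg N : (0 : ℝ) ≤ N)]
    calc 2 * C * qLog q N * ∑ k ∈ Finset.range (N + 1), (((k + 1 : ℕ) : ℝ))⁻¹
        ≤ 2 * C * qLog q N * (3 * qLog q N) :=
          mul_le_mul_of_nonneg_left (by linarith) (mul_nonneg (by positivity) (by linarith))
      _ = _ := by ring

theorem qLog_le_ratio (q : ℕ) [NeZero q] {N k : ℕ} (h : N ≤ k) :
    qLog q k ≤ 6 * qLog q N * (√((k : ℝ) + 1) / √((N : ℝ) + 1)) := by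
  have hk : (N : ℝ) ≤ k := Nat.cast_le.2 h
  have hq : (0 : ℝ) < q := Nat.cast_pos.2 (NeZero.pos q)
  obtain ⟨r, hr⟩ : ∃ r : ℝ, r = ((k : ℝ) + 3) / ((N : ℝ) + 3) := ⟨_, rfl⟩
  have hr1 : 1 ≤ r := by rw [hr, le_div_iff₀ (by positivity)]; linarith
  have hs1 : 1 ≤ √r := Real.one_le_sqrt.2 hr1
  have e : qLog q k = qLog q N + Real.log r := by
    rw [qLog, qLog, Nat.abs_cast, Nat.abs_cast, hr, Real.log_div (by positivity) (by positivity),
      Real.log_mul hq.ne' (by positivity), Real.log_mul hq.ne' (by positivity)]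
    ring
  have hl : Real.log r ≤ 2 * √r := by
    have h' := Real.log_le_sub_one_of_pos (Real.sqrt_pos.2 (show 0 < r by linarith))
    rw [Real.log_sqrt (by linarith)] at h'
    linarith
  have h3 : qLog q k ≤ 3 * qLog q N * √r := by
    have q1 := (qLog_ge q N).1
    rw [e]
    nlinarith
  refine h3.trans ?_
  have hsr : √r ≤ 2 * (√((k : ℝ) + 1) / √((N : ℝ) + 1)) := by
    rw [hr, Real.sqrt_div (by positivity), mul_div_assoc']
    exact div_le_div₀ (by positivity) (sqrt_add_three_le (Nat.cast_nonneg k)) (by positivity)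
      (Real.sqrt_le_sqrt (by linarith))
  have q1 := (qLog_ge q N).1
  nlinarith [mul_le_mul_of_nonneg_left hsr (show 0 ≤ 3 * qLog q N by linarith)]

theorem inv_pow_le_step (k : ℕ) :
    √((k : ℝ) + 1) / ((k : ℝ) + 1) ^ 2 ≤ 4 * (1 / √((k : ℝ) + 1) - 1 / √((k : ℝ) + 2)) := by
  obtain ⟨a, ha⟩ : ∃ a, a = √((k : ℝ) + 1) := ⟨_, rfl⟩
  obtain ⟨b, hb⟩ : ∃ b, b = √((k : ℝ) + 2) := ⟨_, rfl⟩
  have ha2 : a ^ 2 = (k : ℝ) + 1 := ha ▸ Real.sq_sqrt (by positivity)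
  have hb2 : b ^ 2 = (k : ℝ) + 2 := hb ▸ Real.sq_sqrt (by positivity)
  have ha1 : 1 ≤ a := ha ▸ Real.one_le_sqrt.2 (by linarith [(Nat.cast_nonneg k : (0 : ℝ) ≤ k)])
  have hab : a ≤ b := by rw [ha, hb]; exact Real.sqrt_le_sqrt (by linarith)
  have hb3 : b * (a + b) ≤ 4 * a ^ 2 := by nlinarith
  rw [← ha, ← hb, ← ha2, div_sub_div _ _ (by positivity) (by linarith), mul_div_assoc',
    div_le_div_iff₀ (by positivity) (by nlinarith)]
  have hdiff : (b - a) * (a + b) = 1 := by nlinarith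
  nlinarith [mul_le_mul_of_nonneg_left hb3
    (mul_nonneg (mul_nonneg (sub_nonneg.2 hab) (by linarith : (0 : ℝ) ≤ a)) (by linarith :
      (0 : ℝ) ≤ a))]

/-- **The zeros beyond `N`.** -/
theorem exists_tail_sum : ∃ C, 0 ≤ C ∧ ∀ (q : ℕ) [NeZero q]
    (χ : DirichletCharacter ℂ q), χ.IsPrimitive → χ ≠ 1 → ∀ (N : ℕ) (S : Finset ℂ),
      (∀ ρ ∈ S, (N : ℝ) ≤ |ρ.im|) →
        ∑ ρ ∈ S, (lMult χ ρ : ℝ) / (1 + |ρ.im|) ^ 2 ≤ C * qLog q N / ((N : ℝ) + 1) := by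
  obtain ⟨C, hC, h⟩ := exists_fold_weight
  refine ⟨48 * C, by positivity, fun q _ χ hp hχ N S hS => ?_⟩
  obtain ⟨M, hM⟩ : ∃ M, M = max N ((S.sup fun ρ => ⌊|ρ.im|⌋₊) + 1) := ⟨_, rfl⟩
  obtain ⟨c, hc⟩ : ∃ c : ℕ → ℂ → ℝ, c = fun (k : ℕ) ρ => 2 / (k + 1 : ℝ) ^ 2 * foldTerm χ k ρ :=
    ⟨_, rfl⟩
  have hc0 : ∀ (k : ℕ) (ρ : ℂ), 0 ≤ c k ρ := fun k ρ => by
    rw [hc]
    exact mul_nonneg (by positivity) (foldTerm_nonneg χ k ρ)
  refine (Finset.sum_le_sum (g := fun ρ => ∑ k ∈ Finset.Ico N M, c k ρ) fun ρ hρ => ?_).trans ?_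
  · refine le_trans ?_ (Finset.single_le_sum (fun k _ => hc0 k ρ) (a := ⌊|ρ.im|⌋₊)
      (Finset.mem_Ico.2 ⟨Nat.le_floor (hS ρ hρ), hM ▸ lt_of_lt_of_le
        (Nat.lt_succ_of_le (Finset.le_sup (f := fun ρ : ℂ => ⌊|ρ.im|⌋₊) hρ))
        (le_max_right _ _)⟩))
    have h1 := Nat.floor_le (abs_nonneg ρ.im)
    have h2 := mult_le_foldTerm χ ρ
    have h3 := foldTerm_nonneg χ ⌊|ρ.im|⌋₊ ρ
    rw [hc]
    simp only
    rw [div_mul_eq_mul_div]
    exact div_le_div₀ (mul_nonneg zero_le_two h3) h2 (by positivity)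
      (pow_le_pow_left₀ (by positivity) (by linarith) 2)
  rw [Finset.sum_comm]
  obtain ⟨g, hg⟩ : ∃ g : ℕ → ℝ, g = fun (k : ℕ) => 1 / √((k : ℝ) + 1) := ⟨_, rfl⟩
  have q1 := (qLog_ge q N).1
  obtain ⟨K, hK⟩ : ∃ K, K = 48 * C * qLog q N / √((N : ℝ) + 1) := ⟨_, rfl⟩
  have hK0 : 0 ≤ K := hK ▸ div_nonneg (mul_nonneg (by positivity) (by linarith)) (by positivity)
  refine (Finset.sum_le_sum (g := fun k => K * (g k - g (k + 1))) fun k hk => ?_).trans ?_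
  · rw [hc, ← Finset.mul_sum]
    refine (mul_le_mul_of_nonneg_left ((h q χ hp hχ k S).trans (mul_le_mul_of_nonneg_left
      (qLog_le_ratio q (Finset.mem_Ico.1 hk).1) hC)) (by positivity)).trans ?_
    have e : g k - g (k + 1) = 1 / √((k : ℝ) + 1) - 1 / √((k : ℝ) + 2) := by
      rw [hg]
      push_cast
      ring_nf
    rw [e, hK]
    have := mul_le_mul_of_nonneg_left (inv_pow_le_step k)
      (show 0 ≤ 12 * C * qLog q N / √((N : ℝ) + 1) from
        div_nonneg (mul_nonneg (by positivity) (by linarith)) (by positivity))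
    refine le_trans (le_of_eq (by ring)) (this.trans (le_of_eq (by ring)))
  · rw [← Finset.mul_sum]
    have htel : ∀ M, N ≤ M → ∑ k ∈ Finset.Ico N M, (g k - g (k + 1)) = g N - g M := by
      intro M hM
      induction M, hM using Nat.le_induction with
      | base => simp
      | succ m hm ih => rw [Finset.sum_Ico_succ_top hm, ih]; ring
    rw [htel M (hM ▸ le_max_left _ _)]
    have hgM : 0 ≤ g M := hg ▸ by positivity
    calc K * (g N - g M) ≤ K * g N := mul_le_mul_of_nonneg_left (by linarith) hK0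
      _ = _ := by
          rw [hK, hg]
          simp only
          rw [div_mul_div_comm, mul_one, Real.mul_self_sqrt (by positivity)]

end FA.GRHProgressions

end
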