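import Fermat.Agent.DirichletHadamard.Criteria
import Fermat.Agent.GRHProgressions.ZeroSums
import Fermat.Agent.Gallagher.OneChar
import Mathlib.Analysis.SpecialFunctions.JapaneseBracket

/-!
# The explicit formula for `ψ₁ (y, χ)` under the Riemann hypothesis

`∑_{n ≤ y} χ Λ n (y - n) = (1 / 2π) ∫ y^(s+1) / (s (s+1)) (-L'/L) s - ∑ m y^(ρ+1) / (ρ (ρ+1))`,
the integral on `re s = 1/4`.
-/

set_option autoImplicit false

noncomputable section

namespace FA.GRHProgressions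

open Complex Filter Topology MeasureTheory Set
open DirichletCharacter (LFunction completedLFunction)
open FA.DirichletZeroCount FA.DirichletLandau FA.DirichletHadamard
open FA.Gallagher (zeroPow twist psiOneChar)
open FA.ExplicitFormula (boxInt boxEdges boxInt_congr boxInt_add boxInt_eq_zero boxInt_residue
  boxInt_multiset_sum boxInt_const_mul interior_not_edge)
open FA.RiemannMangoldt (rootProd rootProd_ne_zero hasDerivAt_rootProd)
open scoped Real ComplexConjugate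

variable {q : ℕ} [NeZero q] {χ : DirichletCharacter ℂ q}

theorem one_add_im_le {s : ℂ} (hs : 1 / 4 ≤ s.re) : 1 + |s.im| ≤ 5 * ‖s‖ := by
  linarith [abs_im_le_norm s, Complex.re_le_norm s]

theorem norm_le_norm_add_one {s : ℂ} (hs : 0 ≤ s.re) : ‖s‖ ≤ ‖s + 1‖ := by
  refine (sq_le_sq₀ (norm_nonneg _) (norm_nonneg _)).1 ?_
  rw [Complex.sq_norm, Complex.sq_norm, normSq_apply, normSq_apply]
  simp only [add_re, one_re, add_im, one_im, add_zero]
  linarith

theorem inv_kernel_le {s : ℂ} (hs : 1 / 4 ≤ s.re) :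
    1 / (‖s‖ * ‖s + 1‖) ≤ 25 / (1 + |s.im|) ^ 2 := by
  have h1 := one_add_im_le hs
  have h2 := norm_le_norm_add_one (s := s) (by linarith)
  have h0 : 0 < ‖s‖ := by linarith [abs_nonneg s.im]
  rw [div_le_div_iff₀ (mul_pos h0 (by linarith)) (by positivity), one_mul]
  calc (1 + |s.im|) ^ 2 ≤ (5 * ‖s‖) * (5 * ‖s + 1‖) := by
        rw [sq]
        exact mul_le_mul h1 (by linarith) (by positivity) (by linarith)
    _ = _ := by ring

theorem norm_zeroPow_le {s : ℂ} (hs : 1 / 4 ≤ s.re) {y : ℝ} (hy : 0 < y) :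
    ‖zeroPow y s‖ ≤ 25 * y ^ (s.re + 1) / (1 + |s.im|) ^ 2 := by
  rw [zeroPow, norm_div, norm_cpow_eq_rpow_re_of_pos hy, norm_mul, add_re, one_re,
    div_eq_mul_one_div, show 25 * y ^ (s.re + 1) / (1 + |s.im|) ^ 2 =
      y ^ (s.re + 1) * (25 / (1 + |s.im|) ^ 2) by ring]
  exact mul_le_mul_of_nonneg_left (inv_kernel_le hs) (Real.rpow_nonneg hy.le _)

theorem differentiableAt_zeroPow {y : ℝ} (hy : 0 < y) {s : ℂ} (hs : 0 < s.re) :
    DifferentiableAt ℂ (zeroPow y) s := by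
  have h0 : s ≠ 0 := fun h => by simp [h] at hs
  have h1 : s + 1 ≠ 0 := fun h => by
    have := congrArg Complex.re h
    simp at this
    linarith
  exact ((differentiableAt_id.add_const (1 : ℂ)).const_cpow
    (Or.inl (ofReal_ne_zero.2 hy.ne'))).div
      (differentiableAt_id.mul (differentiableAt_id.add_const 1)) (mul_ne_zero h0 h1)

theorem continuousAt_negL (hχ : χ ≠ 1) {s : ℂ} (h : LFunction χ s ≠ 0) :
    ContinuousAt (negL χ) s := by
  have hd := DirichletCharacter.differentiable_LFunction hχ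
  exact ((hd.analyticAt s).deriv.continuousAt.div hd.continuous.continuousAt h).neg

theorem order_lfunction_ne_top (hχ : χ ≠ 1) (z : ℂ) :
    analyticOrderAt (LFunction χ) z ≠ ⊤ := fun h => by
  have h2 := (analyticOnNhd_univ_iff_differentiable.2
    (DirichletCharacter.differentiable_LFunction hχ)
      ).eqOn_zero_of_preconnected_of_eventuallyEq_zero isPreconnected_univ (mem_univ z)
        (analyticOrderAt_eq_top.1 h) (mem_univ (2 : ℂ))
  exact DirichletCharacter.LFunction_ne_zero_of_one_le_re χ (Or.inl hχ) (by norm_num) h2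

/-- The integrand. -/
def intF (χ : DirichletCharacter ℂ q) (y : ℝ) (s : ℂ) : ℂ := zeroPow y s * negL χ s

/-- **The residues.** -/
theorem boxInt_intF (hp : χ.IsPrimitive) (hχ : χ ≠ 1)
    (hleft : ∀ ρ, completedLFunction χ ρ = 0 → 1 / 4 < ρ.re) {y : ℝ} (hy : 0 < y) {T : ℝ}
    (hT : 0 < T) (hord : ∀ ρ, completedLFunction χ ρ = 0 → |ρ.im| ≠ T) :
    boxInt (intF χ y) (1 / 4) 2 T = 2 * π * I *
      -(∑ ρ ∈ zerosUp χ hχ T, (lMult χ ρ : ℂ) * zeroPow y ρ) := by
  classical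
  obtain ⟨K, hK⟩ : ∃ K : Set ℂ, K = Icc (1 / 4 : ℝ) 2 ×ℂ Icc (-T) T := ⟨_, rfl⟩
  have hdL := DirichletCharacter.differentiable_LFunction hχ
  obtain ⟨Z, h, hh, he, hZK, hne, hcount⟩ := FA.Levinson.exists_compact_factor isOpen_univ
    (hK ▸ isCompact_Icc.reProdIm isCompact_Icc : IsCompact K) (subset_univ _)
    hdL.differentiableOn fun z _ => order_lfunction_ne_top hχ z
  have hh' : Differentiable ℂ h := fun z => hh.differentiableAt univ_mem
  have hmemK : ∀ s : ℂ, s ∈ K ↔ s.re ∈ Icc (1 / 4 : ℝ) 2 ∧ s.im ∈ Icc (-T) T := fun s => by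
    rw [hK, mem_reProdIm]
  have hcompl : ∀ s : ℂ, 0 < s.re → LFunction χ s = 0 → completedLFunction χ s = 0 :=
    fun s hs h0 => by rw [completed_eq_mul hχ hs, h0, mul_zero]
  have hin : ∀ ρ ∈ Z, LFunction χ ρ = 0 ∧ 1 / 4 < ρ.re ∧ ρ.re < 1 ∧ |ρ.im| < T := fun ρ hρ => by
    have h0 : LFunction χ ρ = 0 := by
      rw [he]
      refine mul_eq_zero_of_left ?_ _
      simp only [rootProd, Multiset.prod_eq_zero_iff, Multiset.mem_map]
      exact ⟨ρ, hρ, sub_self ρ⟩
    obtain ⟨h1, h2⟩ := (hmemK ρ).1 (hZK ρ hρ)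
    have hc := hcompl ρ (by linarith [h1.1]) h0
    exact ⟨h0, hleft ρ hc, (completed_zero_strip hp hχ hc).2,
      lt_of_le_of_ne (abs_le.2 h2) (hord ρ hc)⟩
  obtain ⟨U₀, hU₀⟩ : ∃ U₀ : Set ℂ, U₀ = {s | 0 < s.re} := ⟨_, rfl⟩
  have hU₀o : IsOpen U₀ := hU₀ ▸ isOpen_lt continuous_const continuous_re
  have hbox₀ : ∀ s : ℂ, s.re ∈ Icc (1 / 4 : ℝ) 2 → s.im ∈ Icc (-T) T → s ∈ U₀ := fun s h1 _ => by
    rw [hU₀]; show 0 < s.re; linarith [h1.1]
  have hkern : DifferentiableOn ℂ (zeroPow y) U₀ := fun s hs => by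
    rw [hU₀] at hs
    exact (differentiableAt_zeroPow hy hs).differentiableWithinAt
  have hedge : ∀ s ∈ boxEdges (1 / 4) 2 T, s.re ∈ Icc (1 / 4 : ℝ) 2 ∧ s.im ∈ Icc (-T) T :=
    fun s hs => by
    obtain ⟨h1, h2, -⟩ := hs
    rw [uIcc_of_le (by norm_num)] at h1
    rw [uIcc_of_le (by linarith)] at h2
    exact ⟨h1, h2⟩
  have hzne : ∀ s ∈ boxEdges (1 / 4) 2 T, ∀ ρ ∈ Z, s ≠ ρ := fun s hs ρ hρ => by
    obtain ⟨-, h1, h2, h3⟩ := hin ρ hρ
    exact interior_not_edge h1 (by linarith) h3.ne hT.le hs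
  obtain ⟨P, hP⟩ : ∃ P : ℂ → ℂ → ℂ, P = fun c s => zeroPow y s / (s - c) := ⟨_, rfl⟩
  obtain ⟨R, hR⟩ : ∃ R : ℂ → ℂ, R = fun s => zeroPow y s * -(deriv h s / h s) := ⟨_, rfl⟩
  have hRd : ∀ s : ℂ, s.re ∈ Icc (1 / 4 : ℝ) 2 → s.im ∈ Icc (-T) T → DifferentiableAt ℂ R s :=
    fun s h1 h2 => by
    rw [hR]
    exact (differentiableAt_zeroPow hy (by linarith [h1.1])).mul
      (((hh'.analyticAt s).deriv.differentiableAt.div (hh' s)
        (hne s ((hmemK s).2 ⟨h1, h2⟩))).neg)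
  have hPc : ∀ ρ ∈ Z, ∀ s ∈ boxEdges (1 / 4) 2 T, ContinuousAt (fun w => -1 * P ρ w) s :=
    fun ρ hρ s hs => by
    obtain ⟨h1, h2⟩ := hedge s hs
    rw [hP]
    exact continuousAt_const.mul ((hkern.differentiableAt
      (hU₀o.mem_nhds (hbox₀ s h1 h2))).continuousAt.div
        (continuousAt_id.sub continuousAt_const) (sub_ne_zero.2 (hzne s hs ρ hρ)))
  obtain ⟨hZc, hZsum⟩ := boxInt_multiset_sum (f := fun ρ s => -1 * P ρ s) (a := (1 / 4 : ℝ))
    (b := 2) (T := T) Z hPc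
  have hRc : ∀ s ∈ boxEdges (1 / 4) 2 T, ContinuousAt R s := fun s hs =>
    (hRd s (hedge s hs).1 (hedge s hs).2).continuousAt
  have hPρ : ∀ ρ ∈ Z, boxInt (fun s => -1 * P ρ s) (1 / 4) 2 T =
      -(2 * π * I) * zeroPow y ρ := fun ρ hρ => by
    obtain ⟨-, h1, h2, h3⟩ := hin ρ hρ
    rw [boxInt_const_mul, hP, boxInt_residue hU₀o hkern hbox₀ hT.le h1 (by linarith) h3.ne,
      if_pos h3]
    ring
  rw [boxInt_congr (G := fun s => R s + (Z.map fun ρ => -1 * P ρ s).sum) fun s hs => ?_,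
    boxInt_add hRc hZc, boxInt_eq_zero (by norm_num) hT.le hRd, zero_add, hZsum,
    Multiset.map_congr rfl hPρ, Multiset.sum_map_mul_left, mul_neg, ← neg_mul,
    Finset.sum_multiset_map_count]
  · simp only [neg_mul]
    congr 2
    refine Finset.sum_congr ?_ fun ρ hρ => ?_
    · ext ρ
      rw [Multiset.mem_toFinset, zerosUp, Set.Finite.mem_toFinset]
      constructor
      · intro hρ
        obtain ⟨h0, h1, h2, h3⟩ := hin ρ hρ
        exact ⟨h0, by linarith, h2, h3.le⟩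
      · rintro ⟨h0, h1, h2, h3⟩
        have hc := hcompl ρ h1 h0
        have hk : ρ ∈ K := (hmemK ρ).2 ⟨⟨(hleft ρ hc).le, by linarith⟩, abs_le.1 h3⟩
        rw [← Multiset.one_le_count_iff_mem, ← hcount ρ hk, ← lMult_eq_order hχ h1]
        exact (lMult_pos_iff hχ).2 hc
    · rw [zerosUp, Set.Finite.mem_toFinset] at hρ
      obtain ⟨h0, h1, h2, h3⟩ := hρ
      have hc := hcompl ρ h1 h0
      rw [nsmul_eq_mul, ← hcount ρ ((hmemK ρ).2 ⟨⟨(hleft ρ hc).le, by linarith⟩, abs_le.1 h3⟩),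
        ← lMult_eq_order hχ h1]
  · obtain ⟨h1, h2⟩ := hedge s hs
    have hroot : ∀ ρ ∈ Z, s ≠ ρ := hzne s hs
    have hd : deriv (LFunction χ) s = rootProd Z s * (Z.map fun ρ => (s - ρ)⁻¹).sum * h s +
        rootProd Z s * deriv h s := by
      rw [show LFunction χ = fun w => rootProd Z w * h w from funext he]
      exact ((hasDerivAt_rootProd hroot).mul (hh' s).hasDerivAt).deriv
    have hlog : deriv (LFunction χ) s / LFunction χ s =
        (Z.map fun ρ => (s - ρ)⁻¹).sum + deriv h s / h s := by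
      have n1 := rootProd_ne_zero hroot
      have n2 := hne s ((hmemK s).2 ⟨h1, h2⟩)
      rw [hd, he s]
      field_simp
    have hm : (Z.map fun ρ => -1 * P ρ s) = Z.map fun ρ => -zeroPow y s * (s - ρ)⁻¹ := by
      refine Multiset.map_congr rfl fun ρ _ => ?_
      rw [hP]
      simp only [div_eq_mul_inv]
      ring
    dsimp only
    rw [hm, Multiset.sum_map_mul_left, intF, negL, hlog, hR]
    ring

theorem re_eq_half (hp : χ.IsPrimitive) (hχ : χ ≠ 1) (hG : GRHFor χ) {ρ : ℂ}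
    (h : completedLFunction χ ρ = 0) : ρ.re = 1 / 2 :=
  re_eq_half_of_grh hp hχ hG h

theorem summable_zeroPow (hp : χ.IsPrimitive) (hχ : χ ≠ 1) (hG : GRHFor χ) {y : ℝ}
    (hy : 0 < y) : Summable fun ρ => ‖(lMult χ ρ : ℂ) * zeroPow y ρ‖ := by
  refine Summable.of_nonneg_of_le (fun ρ => norm_nonneg _) (fun ρ => ?_)
    ((summable_sparse hp hχ).mul_left (25 * y ^ (3 / 2 : ℝ)))
  by_cases hm : lMult χ ρ = 0
  · simp [hm, sparse]
  have hre := re_eq_half hp hχ hG (mem_strip_of_mult hp hχ hm).1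
  rw [norm_mul, Complex.norm_natCast, sparse, ← mul_assoc, mul_comm (25 * y ^ (3 / 2 : ℝ)),
    mul_assoc, mul_one_div]
  refine mul_le_mul_of_nonneg_left ((norm_zeroPow_le (by rw [hre]; norm_num) hy).trans
    (le_of_eq ?_)) (Nat.cast_nonneg _)
  rw [hre]
  norm_num

theorem tendsto_zero_sum (hp : χ.IsPrimitive) (hχ : χ ≠ 1) {f : ℂ → ℂ} (hf : Summable f)
    (h0 : ∀ ρ, completedLFunction χ ρ ≠ 0 → f ρ = 0) {T : ℕ → ℝ} (hT : Tendsto T atTop atTop) :
    Tendsto (fun m => ∑ ρ ∈ zerosUp χ hχ (T m), f ρ) atTop (𝓝 (∑' ρ, f ρ)) := by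
  classical
  obtain ⟨V, hV⟩ : ∃ V : Set ℂ, V = {ρ | completedLFunction χ ρ = 0} := ⟨_, rfl⟩
  have hsupp : Function.support f ⊆ V := fun ρ hρ => by
    rw [hV]
    by_contra h
    exact hρ (h0 ρ h)
  have h : HasSum (f ∘ ((↑) : V → ℂ)) (∑' ρ, f ρ) :=
    (hasSum_subtype_iff_of_support_subset hsupp).2 hf.hasSum
  have hatTop : Tendsto (fun m => (zerosUp χ hχ (T m)).subtype fun ρ => ρ ∈ V) atTop atTop := by
    refine tendsto_atTop.2 fun S => ?_
    filter_upwards [hT.eventually (eventually_ge_atTop (∑ ρ ∈ S, |(ρ : ℂ).im|))] with m hm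
    intro ρ hρ
    have hz : completedLFunction χ (ρ : ℂ) = 0 := by
      have := ρ.2
      simpa only [hV, mem_ofPred_eq] using this
    rw [Finset.mem_subtype, zerosUp, Set.Finite.mem_toFinset]
    exact (mem_lZeros_iff hp hχ).2 ⟨hz, le_trans (Finset.single_le_sum
      (f := fun ρ : V => |(ρ : ℂ).im|) (fun i _ => abs_nonneg _) hρ) hm⟩
  exact (h.comp hatTop).congr fun m => Finset.sum_subtype_of_mem f
    fun ρ hρ => hV ▸ ((mem_lZeros_iff hp hχ).1 ((Set.Finite.mem_toFinset _).1 hρ)).1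

theorem qLog_le_rpow (q : ℕ) [NeZero q] (t : ℝ) :
    qLog q t ≤ (Real.log q + 10) * (1 + |t|) ^ (1 / 8 : ℝ) := by
  have ht : 0 < 1 + |t| := by positivity
  have h1 : 1 ≤ (1 + |t|) ^ (1 / 8 : ℝ) :=
    Real.one_le_rpow (by linarith [abs_nonneg t]) (by norm_num)
  have h2 := Real.log_le_sub_one_of_pos (Real.rpow_pos_of_pos ht (1 / 8 : ℝ))
  rw [Real.log_rpow ht] at h2
  have h3 : Real.log (|t| + 3) ≤ 2 + Real.log (1 + |t|) := by
    have h := Real.log_le_log (by positivity)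
      (show |t| + 3 ≤ 3 * (1 + |t|) by linarith [abs_nonneg t])
    rw [Real.log_mul (by norm_num) ht.ne'] at h
    linarith [Real.log_le_sub_one_of_pos (show (0 : ℝ) < 3 by norm_num)]
  rw [qLog, Real.log_mul (Nat.cast_ne_zero.2 (NeZero.ne q)) (by positivity)]
  nlinarith [Real.log_natCast_nonneg q]

theorem gap_line (hp : χ.IsPrimitive) (hχ : χ ≠ 1) (hG : GRHFor χ) (t : ℝ) (ρ : ℂ)
    (hρ : completedLFunction χ ρ = 0) : 1 / 4 ≤ ‖((1 / 4 : ℝ) : ℂ) + t * I - ρ‖ := by
  refine le_trans ?_ (abs_re_le_norm _)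
  rw [sub_re, re_eq_half hp hχ hG hρ]
  simp
  norm_num

/-- **`-L'/L` on `re = 1/4`.** -/
theorem exists_negL_quarter : ∃ K, 0 ≤ K ∧ ∀ (q : ℕ) [NeZero q]
    (χ : DirichletCharacter ℂ q), χ.IsPrimitive → χ ≠ 1 → GRHFor χ → ∀ t : ℝ,
      ‖negL χ (((1 / 4 : ℝ) : ℂ) + t * I)‖ ≤ K * (Real.log q + 10) * (1 + |t|) ^ (1 / 8 : ℝ) := by
  obtain ⟨K, hK, h⟩ := exists_norm_negL
  refine ⟨4 * K, by positivity, fun q _ χ hp hχ hG t => ?_⟩
  have h' := (h q χ hp hχ (((1 / 4 : ℝ) : ℂ) + t * I) (1 / 4) (by simp) (by simp; norm_num)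
    (by norm_num) (by norm_num) (gap_line hp hχ hG t)).2
  rw [show ((((1 / 4 : ℝ) : ℂ)) + t * I).im = t by simp] at h'
  refine h'.trans ?_
  rw [show K * qLog q t / (1 / 4) = 4 * K * qLog q t by ring, mul_assoc (4 * K)]
  exact mul_le_mul_of_nonneg_left (qLog_le_rpow q t) (by positivity)

theorem continuous_intF_line (hχ : χ ≠ 1) {y σ : ℝ} (hy : 0 < y) (hσ : 0 < σ)
    (hne : ∀ t : ℝ, LFunction χ ((σ : ℂ) + t * I) ≠ 0) :
    Continuous fun t : ℝ => intF χ y ((σ : ℂ) + t * I) := by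
  refine continuous_iff_continuousAt.2 fun t => ?_
  refine ContinuousAt.comp' (g := intF χ y) ?_ (f := fun v : ℝ => (σ : ℂ) + v * I) (by fun_prop)
  exact (differentiableAt_zeroPow hy (by simpa using hσ)).continuousAt.mul
    (continuousAt_negL hχ (hne t))

theorem integrable_bracket {r : ℝ} (hr : 1 < r) :
    Integrable fun t : ℝ => (1 + |t|) ^ (-r) := by
  have h := integrable_one_add_norm (E := ℝ) (μ := volume) (r := r) (by simpa using hr)
  simpa only [Real.norm_eq_abs] using h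

theorem integrable_line_quarter (hp : χ.IsPrimitive) (hχ : χ ≠ 1) (hG : GRHFor χ) {y : ℝ}
    (hy : 0 < y) : Integrable fun t : ℝ => intF χ y (((1 / 4 : ℝ) : ℂ) + t * I) := by
  obtain ⟨K, hK, h⟩ := exists_negL_quarter
  have hne : ∀ t : ℝ, LFunction χ (((1 / 4 : ℝ) : ℂ) + t * I) ≠ 0 := fun t h0 => by
    have hre : (((1 / 4 : ℝ) : ℂ) + t * I).re = 1 / 4 := by simp
    have := hG _ h0 (by rw [hre]; norm_num) (by rw [hre]; norm_num)
    rw [hre] at this
    norm_num at this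
  refine ((integrable_bracket (show (1 : ℝ) < 15 / 8 by norm_num)).const_mul
    (25 * y ^ (5 / 4 : ℝ) * (K * (Real.log q + 10)))).mono'
    (continuous_intF_line hχ hy (by norm_num) hne).aestronglyMeasurable
    (Eventually.of_forall fun t => ?_)
  have ht : 0 < 1 + |t| := by positivity
  rw [intF, norm_mul]
  refine (mul_le_mul ((norm_zeroPow_le (by simp) hy).trans (le_of_eq ?_))
    (h q χ hp hχ hG t) (norm_nonneg _) (by positivity : 0 ≤ 25 * y ^ (5 / 4 : ℝ) /
      (1 + |t|) ^ 2)).trans (le_of_eq ?_)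
  · simp
    norm_num
  · rw [show (-(15 / 8) : ℝ) = 1 / 8 - (2 : ℕ) by norm_num, Real.rpow_sub ht, Real.rpow_natCast]
    ring

/-- **The explicit formula.** -/
theorem psiOneChar_eq_sum (hp : χ.IsPrimitive) (hχ : χ ≠ 1) (hG : GRHFor χ) {y : ℝ}
    (hy : 1 ≤ y) : psiOneChar χ y =
      (1 / (2 * π) : ℂ) * (∫ t : ℝ, intF χ y (((1 / 4 : ℝ) : ℂ) + t * I)) -
        ∑' ρ, (lMult χ ρ : ℂ) * zeroPow y ρ := by
  have hy0 : 0 < y := by linarith
  obtain ⟨K, hK, hneg⟩ := exists_norm_negL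
  obtain ⟨C, hC, hheight⟩ := exists_spaced_height
  obtain ⟨A, hA, htwo⟩ := exists_norm_negL_two
  choose T δ hT1 hT2 hδ0 hδ1 hδ hgap using fun m : ℕ =>
    hheight q χ hp hχ ((m : ℝ) + 1) (by linarith [(Nat.cast_nonneg m : (0 : ℝ) ≤ m)])
  have hT0 : ∀ m, 1 ≤ T m := fun m => by linarith [hT1 m, (Nat.cast_nonneg m : (0 : ℝ) ≤ m)]
  have hTtop : Tendsto T atTop atTop := tendsto_atTop_mono
    (fun m => by linarith [hT1 m]) tendsto_natCast_atTop_atTop
  obtain ⟨c, hc⟩ : ∃ c, c = 25 * y ^ (3 : ℝ) * (K * C * (Real.log q + 4) ^ 2) := ⟨_, rfl⟩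
  have hhor : ∀ m (w : ℝ), |w| = T m →
      ‖∫ u in (1 / 4 : ℝ)..2, intF χ y ((u : ℂ) + (w : ℂ) * I)‖ ≤ 2 * c * (T m)⁻¹ := by
    intro m w hw
    have ht1 := hT0 m
    refine (intervalIntegral.norm_integral_le_of_norm_le_const (C := c * (T m)⁻¹)
      fun u hu => ?_).trans ?_
    · rw [uIoc_of_le (by norm_num)] at hu
      obtain ⟨s, hs⟩ : ∃ s : ℂ, s = (u : ℂ) + (w : ℂ) * I := ⟨_, rfl⟩
      have hre : s.re = u := by simp [hs]
      have him : s.im = w := by simp [hs]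
      have h1 := (hneg q χ hp hχ s (δ m) (by linarith [hu.1]) (by linarith [hu.2]) (hδ0 m)
        (hδ1 m) fun ρ hρ => (hgap m ρ hρ).trans ?_).2
      swap
      · have := abs_im_le_norm (s - ρ)
        rw [sub_im, abs_sub_comm, him] at this
        refine le_trans ?_ this
        rw [← hw]
        exact abs_abs_sub_abs_le_abs_sub ρ.im w
      have hql : qLog q ((m : ℝ) + 1) ≤ qLog q (T m) := by
        refine Real.log_le_log (mul_pos (Nat.cast_pos.2 (NeZero.pos q)) (by positivity)) ?_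
        rw [abs_of_nonneg (by positivity), abs_of_nonneg (by linarith)]
        exact mul_le_mul_of_nonneg_left (by linarith [hT1 m]) (Nat.cast_nonneg q)
      have hqw : qLog q s.im = qLog q (T m) := by
        rw [him, qLog, qLog, hw, abs_of_nonneg (by linarith : 0 ≤ T m)]
      have q1 := (qLog_ge q (T m)).1
      have h2 : K * qLog q s.im / δ m ≤ K * C * qLog q (T m) ^ 2 := by
        rw [hqw, div_eq_mul_one_div, show K * C * qLog q (T m) ^ 2 =
          K * qLog q (T m) * (C * qLog q (T m)) by ring]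
        exact mul_le_mul_of_nonneg_left
          ((hδ m).trans (mul_le_mul_of_nonneg_left hql hC.le)) (mul_nonneg hK (by linarith))
      have h3 : qLog q (T m) ^ 2 ≤ (Real.log q + 4) ^ 2 * (1 + T m) := by
        have := pow_le_pow_left₀ (by linarith) (qLog_le_sqrt q (k := T m) (by linarith)) 2
        rwa [mul_pow, Real.sq_sqrt (by linarith), add_comm (T m)] at this
      have hk : ‖zeroPow y s‖ ≤ 25 * y ^ (3 : ℝ) / (1 + T m) ^ 2 := by
        refine (norm_zeroPow_le (by linarith [hu.1]) hy0).trans ?_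
        rw [him, hw]
        refine div_le_div_of_nonneg_right (mul_le_mul_of_nonneg_left
          (Real.rpow_le_rpow_of_exponent_le hy (by linarith [hu.2])) (by norm_num))
          (by positivity)
      rw [← hs, intF, norm_mul]
      refine (mul_le_mul hk ((h1.trans h2).trans (mul_le_mul_of_nonneg_left h3 (by positivity)))
        (norm_nonneg _) (by positivity)).trans ?_
      rw [hc, show 25 * y ^ (3 : ℝ) / (1 + T m) ^ 2 *
        (K * C * ((Real.log q + 4) ^ 2 * (1 + T m))) =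
          25 * y ^ (3 : ℝ) * (K * C * (Real.log q + 4) ^ 2) * (1 + T m)⁻¹ by field_simp]
      exact mul_le_mul_of_nonneg_left (inv_anti₀ (by linarith) (by linarith)) (by positivity)
    · have : 0 ≤ c * (T m)⁻¹ := by rw [hc]; positivity
      norm_num
      linarith
  have hlim : ∀ e : ℝ, (e = 1 ∨ e = -1) → Tendsto
      (fun m => ∫ u in (1 / 4 : ℝ)..2, intF χ y ((u : ℂ) + ((e * T m : ℝ) : ℂ) * I))
        atTop (𝓝 0) := fun e he => by
    refine squeeze_zero_norm (fun m => hhor m _ ?_) ?_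
    · rcases he with rfl | rfl <;> simp [abs_of_nonneg (zero_le_one.trans (hT0 m))]
    · simpa using hTtop.inv_tendsto_atTop.const_mul (2 * c)
  have hbot := hlim (-1) (Or.inr rfl)
  have htop := hlim 1 (Or.inl rfl)
  simp only [neg_one_mul, one_mul] at hbot htop
  have hiL := integrable_line_quarter hp hχ hG hy0
  have hiR : Integrable fun t : ℝ => intF χ y (((2 : ℝ) : ℂ) + t * I) := by
    refine ((integrable_bracket (show (1 : ℝ) < 2 by norm_num)).const_mul
      (25 * y ^ (3 : ℝ) * A)).mono' (continuous_intF_line hχ hy0 two_pos fun t =>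
        DirichletCharacter.LFunction_ne_zero_of_one_le_re χ (Or.inl hχ)
          (by simp)).aestronglyMeasurable (Eventually.of_forall fun t => ?_)
    rw [intF, norm_mul]
    refine (mul_le_mul ((norm_zeroPow_le (by simp; norm_num) hy0).trans (le_of_eq ?_))
      (htwo q χ t) (norm_nonneg _) (by positivity : 0 ≤ 25 * y ^ (3 : ℝ) /
        (1 + |t|) ^ 2)).trans (le_of_eq ?_)
    · simp
      norm_num
    · rw [Real.rpow_neg (by positivity), Real.rpow_two]
      ring
  have hneg' : Tendsto (fun m => -T m) atTop atBot := tendsto_neg_atTop_atBot.comp hTtop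
  have hl := intervalIntegral_tendsto_integral hiL hneg' hTtop
  have hr := intervalIntegral_tendsto_integral hiR hneg' hTtop
  have hbox := ((hbot.sub htop).add (hr.const_mul I)).sub (hl.const_mul I)
  have hsum := ((tendsto_zero_sum hp hχ (summable_zeroPow hp hχ hG hy0).of_norm
    (fun ρ h => by rw [lMult_eq_zero hχ h, Nat.cast_zero, zero_mul]) hTtop).neg).const_mul
      (2 * π * I : ℂ)
  have heq := tendsto_nhds_unique hsum (hbox.congr fun m => by
    rw [← boxInt, boxInt_intF hp hχ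
      (fun ρ hρ => by rw [re_eq_half hp hχ hG hρ]; norm_num) hy0
      (by linarith [hT0 m]) fun ρ hρ h => by
        have := hgap m ρ hρ
        rw [h, sub_self, abs_zero] at this
        linarith [hδ0 m]])
  have hperron := FA.SiegelWalfisz.smoothSum_eq (f := twist χ) (F := negL χ) (x := y) (σ := 2)
    hy0 one_lt_two (DirichletCharacter.LSeriesSummable_twist_vonMangoldt χ (by norm_num))
    fun s hs => by
      rw [negL, DirichletCharacter.deriv_LFunction_eq_deriv_LSeries _ hs,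
        DirichletCharacter.LFunction_eq_LSeries _ hs, ← neg_div,
        ← DirichletCharacter.LSeries_twist_vonMangoldt_eq χ hs]
      rfl
  have e : ∀ t : ℝ, (y : ℂ) * FA.SiegelWalfisz.kernelMul (negL χ) y (((2 : ℝ) : ℂ) + t * I) =
      intF χ y (((2 : ℝ) : ℂ) + t * I) := fun t => by
    rw [FA.SiegelWalfisz.kernelMul, intF, zeroPow,
      cpow_add (((2 : ℝ) : ℂ) + t * I) 1 (ofReal_ne_zero.2 hy0.ne'),
      cpow_one]
    ring
  rw [FA.Gallagher.psiOneChar_eq χ hy0.ne', hperron, Complex.real_smul, mul_left_comm,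
    ← integral_const_mul]
  simp only [e]
  generalize (∫ t : ℝ, intF χ y (((2 : ℝ) : ℂ) + t * I)) = R at heq ⊢
  generalize (∫ t : ℝ, intF χ y (((1 / 4 : ℝ) : ℂ) + t * I)) = L at heq ⊢
  generalize (∑' ρ, (lMult χ ρ : ℂ) * zeroPow y ρ) = S at heq ⊢
  push_cast
  have hπ : (π : ℂ) ≠ 0 := ofReal_ne_zero.2 Real.pi_ne_zero
  field_simp
  linear_combination I * heq + (R - L + 2 * π * S) * I_sq

end FA.GRHProgressions

end
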