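import Fermat.Agent.GRHProgressions.Psi
import Mathlib.Analysis.MellinTransform
import Mathlib.NumberTheory.LSeries.SumCoeff

/-!
# A bound on `ψ (x, χ)` keeps the zeros out of a half-plane

`-L'/L = s ∫ ψ (t, χ) t^(-s-1)`, so a bound `O (t^θ)` continues `L'/L` to `re s > θ`.
-/

set_option autoImplicit false

noncomputable section

namespace FA.GRHProgressions

open Complex MeasureTheory Filter Asymptotics Set
open DirichletCharacter (LFunction completedLFunction)
open FA.DirichletZeroCount FA.DirichletLandau FA.DirichletHadamard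
open FA.Gallagher (psiChar twist)
open scoped Real Topology ComplexConjugate ArithmeticFunction.vonMangoldt

variable {q : ℕ} [NeZero q] {χ : DirichletCharacter ℂ q}

/-- `ψ (t, χ)`, zero left of `1`. -/
def psiPart (χ : DirichletCharacter ℂ q) : ℝ → ℂ := (Ioi 1).indicator (psiChar χ)

omit [NeZero q] in
theorem norm_psiChar_trivial (χ : DirichletCharacter ℂ q) {t : ℝ} (ht : 0 ≤ t) :
    ‖psiChar χ t‖ ≤ t * t := by
  rw [psiChar]
  refine (norm_sum_le _ _).trans ((Finset.sum_le_card_nsmul _ _ t fun n hn => ?_).trans ?_)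
  · rw [Finset.mem_Icc] at hn
    have hnt : (n : ℝ) ≤ t := (Nat.cast_le.2 hn.2).trans (Nat.floor_le ht)
    rw [twist, norm_mul, norm_real, Real.norm_of_nonneg ArithmeticFunction.vonMangoldt_nonneg]
    refine (mul_le_of_le_one_left ArithmeticFunction.vonMangoldt_nonneg (χ.norm_le_one _)).trans
      (ArithmeticFunction.vonMangoldt_le_log.trans ?_)
    have : (0 : ℝ) < n := Nat.cast_pos.2 hn.1
    linarith [Real.log_le_sub_one_of_pos this]
  · rw [Nat.card_Icc, Nat.add_sub_cancel, nsmul_eq_mul]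
    exact mul_le_mul_of_nonneg_right (Nat.floor_le ht) ht

omit [NeZero q] in
theorem differentiableAt_mellin_psiPart {θ : ℝ}
    (h : psiChar χ =O[atTop] fun t : ℝ => t ^ θ) {z : ℂ} (hz : θ < z.re) :
    DifferentiableAt ℂ (fun w => mellin (psiPart χ) (-w)) z := by
  have hmeas : Measurable (psiPart χ) := by
    refine Measurable.indicator ?_ measurableSet_Ioi
    exact (measurable_of_countable
      (fun n : ℕ => ∑ k ∈ Finset.Icc 1 n, twist χ k)).comp Nat.measurable_floor
  have hloc : LocallyIntegrableOn (psiPart χ) (Ioi 0) := by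
    have hc : LocallyIntegrable (fun t : ℝ => t * t) volume :=
      (continuous_id.mul continuous_id).locallyIntegrable
    refine (hc.mono hmeas.aestronglyMeasurable
      (Eventually.of_forall fun t => ?_)).locallyIntegrableOn _
    rw [Real.norm_eq_abs, abs_mul_self, psiPart]
    rcases le_or_gt t 1 with ht | ht
    · rw [indicator_of_notMem (show t ∉ Ioi (1 : ℝ) from not_lt.2 ht), norm_zero]
      exact mul_self_nonneg t
    · rw [indicator_of_mem (mem_Ioi.2 ht)]
      exact norm_psiChar_trivial χ (by linarith)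
  have hd := mellin_differentiableAt_of_isBigO_rpow (f := psiPart χ) (a := -θ)
    (b := -z.re - 1) (s := -z) hloc ?_ (by simpa using hz) ?_ (by simp)
  · exact hd.comp z differentiableAt_fun_id.neg
  · refine IsBigO.congr' h ?_ (Eventually.of_forall fun t => by simp)
    filter_upwards [eventually_gt_atTop 1] with t ht
    rw [psiPart, indicator_of_mem (mem_Ioi.2 ht)]
  · refine (isBigO_zero _ _).congr' ?_ EventuallyEq.rfl
    filter_upwards [nhdsWithin_le_nhds (Iio_mem_nhds one_pos)] with t ht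
    exact (indicator_of_notMem (fun h => lt_asymm (mem_Ioi.1 h) ht) _).symm

/-- **No zeros right of `θ`.** -/
theorem lfunction_ne_zero_of_psi (hχ : χ ≠ 1) {θ : ℝ} (hθ : 0 ≤ θ)
    (h : psiChar χ =O[atTop] fun t : ℝ => t ^ θ) {ρ : ℂ} (hρ : θ < ρ.re) :
    LFunction χ ρ ≠ 0 := by
  obtain ⟨U, hU⟩ : ∃ U : Set ℂ, U = {z | θ < z.re} := ⟨_, rfl⟩
  have hUo : IsOpen U := hU ▸ isOpen_lt continuous_const continuous_re
  have hd := DirichletCharacter.differentiable_LFunction hχ
  obtain ⟨F, hF⟩ : ∃ F : ℂ → ℂ, F = fun z => -(z * mellin (psiPart χ) (-z)) := ⟨_, rfl⟩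
  have hFd : AnalyticOnNhd ℂ F U := DifferentiableOn.analyticOnNhd (fun z hz => by
    rw [hU] at hz
    rw [hF]
    exact (differentiableAt_id.mul
      (differentiableAt_mellin_psiPart h hz)).neg.differentiableWithinAt) hUo
  have hev : deriv (LFunction χ) =ᶠ[𝓝 ((max θ 1 + 1 : ℝ) : ℂ)] F * LFunction χ := by
    filter_upwards [(isOpen_lt continuous_const Complex.continuous_re).mem_nhds
      (show max θ 1 < ((max θ 1 + 1 : ℝ) : ℂ).re by simp)] with z hz
    have hz1 : 1 < z.re := lt_of_le_of_lt (le_max_right _ _) hz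
    have hO : (fun n : ℕ => ∑ k ∈ Finset.Icc 1 n, twist χ k) =O[atTop]
        fun n : ℕ => (n : ℝ) ^ θ := by
      refine (h.comp_tendsto tendsto_natCast_atTop_atTop).congr_left fun n => ?_
      rw [Function.comp_apply, psiChar, Nat.floor_natCast]
    have hI := LSeries_eq_mul_integral (twist χ) hθ (lt_of_le_of_lt (le_max_left _ _) hz)
      (DirichletCharacter.LSeriesSummable_twist_vonMangoldt χ hz1) hO
    have hm : mellin (psiPart χ) (-z) = ∫ t in Ioi (1 : ℝ),
        (∑ k ∈ Finset.Icc 1 ⌊t⌋₊, twist χ k) * (t : ℂ) ^ (-(z + 1)) := by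
      rw [mellin, setIntegral_eq_of_subset_of_forall_sdiff_eq_zero (s := Ioi (1 : ℝ))
        measurableSet_Ioi (Ioi_subset_Ioi zero_le_one) fun t ht => by
          rw [psiPart, indicator_of_notMem ht.2, smul_zero]]
      refine setIntegral_congr_fun measurableSet_Ioi fun t ht => ?_
      rw [psiPart, indicator_of_mem ht, smul_eq_mul, mul_comm, ← neg_add']
      rfl
    have hL : LFunction χ z ≠ 0 :=
      DirichletCharacter.LFunction_ne_zero_of_one_le_re χ (Or.inl hχ) hz1.le
    have e : LSeries (twist χ) z = -(deriv (LFunction χ) z / LFunction χ z) := by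
      rw [DirichletCharacter.deriv_LFunction_eq_deriv_LSeries _ hz1,
        DirichletCharacter.LFunction_eq_LSeries _ hz1, ← neg_div,
        ← DirichletCharacter.LSeries_twist_vonMangoldt_eq χ hz1]
      rfl
    rw [Pi.mul_apply, hF]
    simp only
    rw [hm, ← hI, e, neg_neg, div_mul_cancel₀ _ hL]
  have heq := AnalyticOnNhd.eqOn_of_preconnected_of_eventuallyEq
    (f := deriv (LFunction χ)) (g := F * LFunction χ) (U := U)
    (fun z _ => (hd.analyticAt z).deriv) (hFd.mul fun z _ => hd.analyticAt z)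
      (hU ▸ (convex_halfSpace_re_gt θ).isPreconnected)
      (hU ▸ (show θ < ((max θ 1 + 1 : ℝ) : ℂ).re by simp; linarith [le_max_left θ 1])) hev
  intro h0
  have hρU : ρ ∈ U := hU ▸ hρ
  obtain ⟨n, hn⟩ : ∃ n : ℕ, analyticOrderAt (LFunction χ) ρ = n :=
    ⟨_, (ENat.natCast_toNat (order_lfunction_ne_top hχ ρ)).symm⟩
  have hn0 : n ≠ 0 := fun e => (hd.analyticAt ρ).analyticOrderAt_ne_zero.2 h0 (by rw [hn, e]; rfl)
  obtain ⟨m, rfl⟩ : ∃ m, n = m + 1 := ⟨n - 1, by omega⟩
  have h1 := analyticOrderAt_deriv_of_pos (hd.analyticAt ρ) (n := m) (by rw [hn]; push_cast; rfl)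
  rw [analyticOrderAt_congr (eventually_of_mem (hUo.mem_nhds hρU) heq),
    analyticOrderAt_mul (hFd ρ hρU) (hd.analyticAt ρ), hn] at h1
  have : ((m + 1 : ℕ) : ℕ∞) ≤ m := h1 ▸ le_add_left le_rfl
  exact absurd (Nat.cast_le.1 this) (by omega)

/-- **`O_ε (x ^ (1/2 + ε))` gives the Riemann hypothesis.** -/
theorem grh_of_psi (hp : χ.IsPrimitive) (hχ : χ ≠ 1)
    (h : ∀ ε : ℝ, 0 < ε → psiChar χ =O[atTop] fun t : ℝ => t ^ (1 / 2 + ε)) : GRHFor χ := by
  intro ρ hρ h0 h1
  rcases lt_trichotomy ρ.re (1 / 2) with hlt | heq | hgt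
  · exfalso
    have hc : completedLFunction χ ρ = 0 := by rw [completed_eq_mul hχ h0, hρ, mul_zero]
    have hc' : completedLFunction χ (1 - conj ρ) = 0 := by
      rw [completed_reflect hp hχ, hc, map_zero, mul_zero]
    have hre : (1 - conj ρ).re = 1 - ρ.re := by simp
    rw [completed_eq_mul hχ (by rw [hre]; linarith), mul_eq_zero] at hc'
    refine lfunction_ne_zero_of_psi hχ (by linarith) (h ((1 / 2 - ρ.re) / 2) (by linarith))
      (by rw [hre]; linarith) (hc'.resolve_left (gammaShift_ne_zero (by rw [hre]; linarith)))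
  · exact heq
  · exact absurd hρ (lfunction_ne_zero_of_psi hχ (by linarith)
      (h ((ρ.re - 1 / 2) / 2) (by linarith)) (by linarith))

/-- `ψ (x, χ) = O (√x log² x)` for each character. -/
theorem isBigO_psiChar (hp : χ.IsPrimitive) (hχ : χ ≠ 1) (hG : GRHFor χ) :
    psiChar χ =O[atTop] fun t : ℝ => √t * Real.log t ^ 2 := by
  obtain ⟨C, hC, h⟩ := exists_psiChar_primitive
  refine IsBigO.of_bound (4 * C) ?_
  filter_upwards [eventually_ge_atTop 2, eventually_ge_atTop (q : ℝ)] with t ht htq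
  refine (h q χ hp hχ hG t ht).trans ?_
  rw [Real.norm_of_nonneg (by positivity)]
  have hq : (1 : ℝ) ≤ q := Nat.one_le_cast.2 NeZero.one_le
  have hl : Real.log (q * t) ≤ 2 * Real.log t := by
    rw [Real.log_mul (by positivity) (by positivity)]
    linarith [Real.log_le_log (by linarith) htq]
  have hl0 : 0 ≤ Real.log (q * t) := Real.log_nonneg (by nlinarith)
  calc C * √t * Real.log (q * t) ^ 2 ≤ C * √t * (2 * Real.log t) ^ 2 := by gcongr
    _ = _ := by ring

theorem isBigO_sqrt_log_sq {ε : ℝ} (hε : 0 < ε) :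
    (fun t : ℝ => √t * Real.log t ^ 2) =O[atTop] fun t : ℝ => t ^ (1 / 2 + ε) := by
  have h := (isLittleO_log_rpow_atTop (half_pos hε)).isBigO.pow 2
  refine ((isBigO_refl (fun t : ℝ => √t) atTop).mul h).congr' EventuallyEq.rfl ?_
  filter_upwards [eventually_gt_atTop 0] with t ht
  rw [← Real.rpow_natCast, ← Real.rpow_mul ht.le, Real.sqrt_eq_rpow, ← Real.rpow_add ht]
  push_cast
  ring_nf

end FA.GRHProgressions

end
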