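import Fermat.Agent.DirichletHadamard.RealPart

/-!
# `L'/L` in the strip, uniformly in the modulus

The partial fractions of `Λ'/Λ` at `s` less those at `2 + i t` give
`|L'/L s| = O (log (q (|t| + 3)) / δ)` as soon as `s` keeps the distance `δ` from the zeros.
-/

set_option autoImplicit false

noncomputable section

namespace FA.GRHProgressions

open Complex
open DirichletCharacter (LFunction completedLFunction)
open FA.DirichletZeroCount FA.DirichletLandau FA.DirichletHadamard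
open scoped Real ArithmeticFunction.vonMangoldt

variable {q : ℕ} [NeZero q] {χ : DirichletCharacter ℂ q}

/-- `-L'/L`. -/
def negL (χ : DirichletCharacter ℂ q) (s : ℂ) : ℂ :=
  -(deriv (LFunction χ) s / LFunction χ s)

theorem norm_gammaLog_le (q : ℕ) [NeZero q] {w : ℂ} (h1 : 1 / 4 ≤ w.re) (h2 : w.re ≤ 4) :
    ‖FA.Levinson.gammaLog w‖ ≤ 20 * qLog q w.im := by
  obtain ⟨z, hz⟩ : ∃ z : ℂ, z = w / 2 := ⟨_, rfl⟩
  have hzre : z.re = w.re / 2 := by simp [hz]
  have hzim : z.im = w.im / 2 := by simp [hz]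
  have hz8 : 1 / 8 ≤ z.re := by linarith
  have hrec := Complex.digamma_apply_add_one z fun m h => by
    have := congrArg Complex.re h
    simp at this
    linarith [(Nat.cast_nonneg m : (0 : ℝ) ≤ m)]
  rw [Complex.digamma_def, logDeriv_apply, logDeriv_apply] at hrec
  have hinv : ‖z⁻¹‖ ≤ 8 := by
    rw [norm_inv]
    refine (inv_anti₀ (by norm_num : (0 : ℝ) < 1 / 8) ?_).trans (by norm_num)
    exact hz8.trans (Complex.re_le_norm z)
  have hd := FA.ExplicitFormula.norm_digamma_le (z := z + 1) (by simp; linarith)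
  have hn : ‖z + 1‖ + 2 ≤ |w.im| + 6 := by
    have := norm_le_abs_re_add_abs_im (z + 1)
    simp only [add_re, one_re, add_im, one_im, add_zero, hzre, hzim] at this
    rw [abs_of_nonneg (by linarith : (0 : ℝ) ≤ w.re / 2 + 1), abs_div, abs_two] at this
    linarith [abs_nonneg w.im]
  have hlog : Real.log (‖z + 1‖ + 2) ≤ 2 * qLog q w.im := by
    have hq : (1 : ℝ) ≤ q := Nat.one_le_cast.2 NeZero.one_le
    have h0 : |w.im| + 3 ≤ q * (|w.im| + 3) := le_mul_of_one_le_left (by positivity) hq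
    have h : Real.log (‖z + 1‖ + 2) ≤ Real.log ((q * (|w.im| + 3)) ^ 2) :=
      Real.log_le_log (by positivity) (hn.trans
        (by nlinarith [pow_le_pow_left₀ (by positivity) h0 2, abs_nonneg w.im]))
    rwa [Real.log_pow, Nat.cast_ofNat] at h
  have h3 : ‖deriv Complex.Gamma z / Complex.Gamma z‖ ≤ 17 + 6 * qLog q w.im := by
    rw [show deriv Complex.Gamma z / Complex.Gamma z =
      deriv Complex.Gamma (z + 1) / Complex.Gamma (z + 1) - z⁻¹ by rw [hrec]; ring]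
    refine (norm_sub_le _ _).trans ?_
    linarith
  have hpi : ‖((Real.log π : ℝ) : ℂ)‖ ≤ 3 := by
    rw [Complex.norm_real, Real.norm_of_nonneg (Real.log_nonneg (by linarith [Real.pi_gt_three]))]
    exact (Real.log_le_sub_one_of_pos Real.pi_pos).trans (by linarith [Real.pi_le_four])
  rw [FA.Levinson.gammaLog_eq_digamma (by linarith), ← hz]
  refine (norm_add_le _ _).trans ?_
  rw [norm_div, norm_div, norm_neg, Complex.norm_two]
  linarith [(qLog_ge q w.im).1]

theorem negL_eq (hχ : χ ≠ 1) {s : ℂ} (hs : 0 < s.re) (hc : completedLFunction χ s ≠ 0) :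
    negL χ s = FA.Levinson.gammaLog (s + gShift χ) - lLog χ s := by
  have hL : LFunction χ s ≠ 0 := fun h => hc (by rw [completed_eq_mul hχ hs, h, mul_zero])
  rw [negL, lLog_eq_add hχ hs hL, FA.Levinson.gammaLog]
  ring

/-- `-L'/L` is bounded on `re = 2`, uniformly in everything. -/
theorem exists_norm_negL_two : ∃ A, 0 ≤ A ∧ ∀ (q : ℕ) [NeZero q]
    (χ : DirichletCharacter ℂ q) (t : ℝ), ‖negL χ (((2 : ℝ) : ℂ) + t * I)‖ ≤ A := by
  obtain ⟨f, hf⟩ : ∃ f : ℕ → ℂ, f = fun n => ((Λ n : ℝ) : ℂ) := ⟨_, rfl⟩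
  have hsum : Summable fun n => ‖LSeries.term f 2 n‖ :=
    (hf ▸ ArithmeticFunction.LSeriesSummable_vonMangoldt (s := 2) (by norm_num)).norm
  refine ⟨∑' n, ‖LSeries.term f 2 n‖, tsum_nonneg fun n => norm_nonneg _, fun q _ χ t => ?_⟩
  obtain ⟨u, hu⟩ : ∃ u : ℂ, u = ((2 : ℝ) : ℂ) + t * I := ⟨_, rfl⟩
  have hre : u.re = 2 := by simp [hu]
  have h1 : 1 < u.re := by rw [hre]; norm_num
  rw [← hu, negL, DirichletCharacter.deriv_LFunction_eq_deriv_LSeries _ h1,
    DirichletCharacter.LFunction_eq_LSeries _ h1, ← neg_div,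
    ← DirichletCharacter.LSeries_twist_vonMangoldt_eq χ h1]
  have hs : Summable fun n => ‖LSeries.term (lamChar χ) u n‖ :=
    Summable.norm (DirichletCharacter.LSeriesSummable_twist_vonMangoldt χ (s := u) h1)
  refine (norm_tsum_le_tsum_norm hs).trans (hs.tsum_le_tsum (fun n => ?_) hsum)
  rw [LSeries.norm_term_eq, LSeries.norm_term_eq, hre, show (2 : ℂ).re = 2 by norm_num]
  split_ifs
  · exact le_rfl
  · refine div_le_div_of_nonneg_right ?_ (by positivity)
    rw [hf, lamChar, norm_mul]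
    exact mul_le_of_le_one_left (norm_nonneg _) (χ.norm_le_one _)

/-- `m / (1 + (γ - t)²)`. -/
def wTerm (χ : DirichletCharacter ℂ q) (t : ℝ) (ρ : ℂ) : ℝ :=
  (lMult χ ρ : ℝ) / (1 + (ρ.im - t) ^ 2)

theorem wTerm_nonneg (χ : DirichletCharacter ℂ q) (t : ℝ) (ρ : ℂ) : 0 ≤ wTerm χ t ρ := by
  rw [wTerm]
  positivity

theorem wTerm_le_realTerm (hp : χ.IsPrimitive) (hχ : χ ≠ 1) (t : ℝ) (ρ : ℂ) :
    wTerm χ t ρ ≤ 4 * realTerm χ (((2 : ℝ) : ℂ) + t * I) ρ := by
  by_cases hm : lMult χ ρ = 0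
  · simp [wTerm, realTerm, hm]
  obtain ⟨-, h0, h1⟩ := mem_strip_of_mult hp hχ hm
  rw [wTerm, realTerm, re_inv_sub, normSq_apply, div_eq_mul_inv, ← mul_left_comm]
  refine mul_le_mul_of_nonneg_left ?_ (Nat.cast_nonneg _)
  simp only [add_re, ofReal_re, mul_re, I_re, mul_zero, ofReal_im, I_im, mul_one, sub_self,
    add_zero, sub_re, sub_im, add_im, mul_im, zero_add]
  rw [mul_div_assoc', inv_eq_one_div, div_le_div_iff₀ (by positivity) (by nlinarith)]
  nlinarith [sq_nonneg (ρ.im - t)]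

/-- **`∑ m / (1 + (γ - t)²) = O (log (q (|t| + 3)))`.** -/
theorem exists_zero_weight : ∃ C, 0 ≤ C ∧ ∀ (q : ℕ) [NeZero q]
    (χ : DirichletCharacter ℂ q), χ.IsPrimitive → χ ≠ 1 → ∀ t : ℝ,
      Summable (wTerm χ t) ∧ ∑' ρ, wTerm χ t ρ ≤ C * qLog q t := by
  obtain ⟨A, hA, h2⟩ := exists_norm_negL_two
  refine ⟨4 * (A + 21), by positivity, fun q _ χ hp hχ t => ?_⟩
  obtain ⟨u, hu⟩ : ∃ u : ℂ, u = ((2 : ℝ) : ℂ) + t * I := ⟨_, rfl⟩
  have hure : u.re = 2 := by simp [hu]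
  have huim : u.im = t := by simp [hu]
  have hc := completed_ne_zero_right hχ (s := u) (by rw [hure]; norm_num)
  have hr := hasSum_realTerm hp hχ hc
  have hs : Summable (wTerm χ t) := Summable.of_nonneg_of_le (wTerm_nonneg χ t)
    (fun ρ => hu ▸ wTerm_le_realTerm hp hχ t ρ) (hr.summable.mul_left 4)
  refine ⟨hs, (hs.tsum_le_tsum (fun ρ => hu ▸ wTerm_le_realTerm hp hχ t ρ)
    (hr.summable.mul_left 4)).trans ?_⟩
  rw [(hr.mul_left 4).tsum_eq]
  obtain ⟨a0, a1⟩ := gShift_mem χ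
  have hg := norm_gammaLog_le q (w := u + gShift χ) (by simp [hure]; linarith)
    (by simp [hure]; linarith)
  rw [show (u + (gShift χ : ℂ)).im = t by simp [huim]] at hg
  have e := negL_eq hχ (s := u) (by rw [hure]; norm_num) hc
  have hl : (lLog χ u).re ≤ 20 * qLog q t + A := by
    refine (Complex.re_le_norm _).trans ?_
    rw [show lLog χ u = FA.Levinson.gammaLog (u + gShift χ) - negL χ u by rw [e]; ring]
    exact (norm_sub_le _ _).trans (add_le_add hg (hu ▸ h2 q χ t))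
  obtain ⟨q1, q2⟩ := qLog_ge q t
  nlinarith [Real.log_natCast_nonneg q]

theorem one_add_abs_mul_le {δ u N : ℝ} (hδ : 0 < δ) (h1 : δ ≤ N) (h2 : |u| ≤ N) :
    1 + |u| ≤ (1 + 1 / δ) * N := by
  have : 1 ≤ 1 / δ * N := by rw [div_mul_eq_mul_div, le_div_iff₀ hδ]; linarith
  linarith

/-- **`L'/L` away from the zeros.** -/
theorem exists_norm_negL : ∃ K, 0 ≤ K ∧ ∀ (q : ℕ) [NeZero q]
    (χ : DirichletCharacter ℂ q), χ.IsPrimitive → χ ≠ 1 → ∀ (s : ℂ) (δ : ℝ),
      1 / 4 ≤ s.re → s.re ≤ 2 → 0 < δ → δ ≤ 1 →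
      (∀ ρ, completedLFunction χ ρ = 0 → δ ≤ ‖s - ρ‖) →
      completedLFunction χ s ≠ 0 ∧ ‖negL χ s‖ ≤ K * qLog q s.im / δ := by
  obtain ⟨C, hC, hW⟩ := exists_zero_weight
  obtain ⟨A, hA, h2⟩ := exists_norm_negL_two
  refine ⟨40 + A + 4 * C, by positivity, fun q _ χ hp hχ s δ hs1 hs2 hδ hδ1 hgap => ?_⟩
  have hc : completedLFunction χ s ≠ 0 := fun h => by
    have := hgap s h
    rw [sub_self, norm_zero] at this
    linarith
  refine ⟨hc, ?_⟩
  obtain ⟨t, ht⟩ : ∃ t, t = s.im := ⟨_, rfl⟩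
  obtain ⟨u, hu⟩ : ∃ u : ℂ, u = ((2 : ℝ) : ℂ) + t * I := ⟨_, rfl⟩
  have hure : u.re = 2 := by simp [hu]
  have huim : u.im = t := by simp [hu]
  have hcu := completed_ne_zero_right hχ (s := u) (by rw [hure]; norm_num)
  obtain ⟨hsw, hWt⟩ := hW q χ hp hχ t
  have hd : HasSum (fun ρ => pTerm χ s ρ - pTerm χ u ρ) (lLog χ s - lLog χ u) := by
    have := (hasSum_pTerm hp hχ hc).sub (hasSum_pTerm hp hχ hcu)
    rwa [sub_sub_sub_cancel_right] at this
  have hdiff : ‖lLog χ s - lLog χ u‖ ≤ 4 / δ * (C * qLog q t) := by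
    rw [← hd.tsum_eq]
    refine (tsum_of_norm_bounded (hsw.hasSum.mul_left (4 / δ)) fun ρ => ?_).trans
      (mul_le_mul_of_nonneg_left hWt (by positivity))
    by_cases hm : lMult χ ρ = 0
    · simp [pTerm, wTerm, hm]
    obtain ⟨hρ, h0, h1⟩ := mem_strip_of_mult hp hχ hm
    have g1 := hgap ρ hρ
    have n1 : s - ρ ≠ 0 := norm_pos_iff.1 (by linarith)
    have n2 : u - ρ ≠ 0 := fun h => by
      have := congrArg Complex.re h
      simp [hure] at this
      linarith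
    rw [pTerm, pTerm, wTerm, ← mul_sub, add_sub_add_right_eq_sub, norm_mul, Complex.norm_natCast,
      show (4 / δ) * ((lMult χ ρ : ℝ) / (1 + (ρ.im - t) ^ 2)) =
        lMult χ ρ * (4 / δ / (1 + (ρ.im - t) ^ 2)) by ring,
      show (s - ρ)⁻¹ - (u - ρ)⁻¹ = (u - s) / ((s - ρ) * (u - ρ)) by field_simp; ring,
      norm_div, norm_mul]
    refine mul_le_mul_of_nonneg_left ?_ (Nat.cast_nonneg _)
    have e1 : ‖u - s‖ ≤ 2 := by
      rw [show u - s = ((2 - s.re : ℝ) : ℂ) from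
        Complex.ext (by simp [hure]) (by simp [huim, ht]), Complex.norm_real, Real.norm_eq_abs,
        abs_le]
      constructor <;> linarith
    have b1 := one_add_abs_mul_le hδ g1 (u := ρ.im - t) (by
      have := abs_im_le_norm (s - ρ)
      rwa [sub_im, abs_sub_comm, ← ht] at this)
    have b2 : |ρ.im - t| ≤ ‖u - ρ‖ := by
      have := abs_im_le_norm (u - ρ)
      rwa [sub_im, abs_sub_comm, huim] at this
    have b3 : 1 ≤ ‖u - ρ‖ := le_trans (by simp [hure]; linarith) (Complex.re_le_norm (u - ρ))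
    rw [div_le_div_iff₀ (mul_pos (norm_pos_iff.2 n1) (norm_pos_iff.2 n2)) (by positivity)]
    calc ‖u - s‖ * (1 + (ρ.im - t) ^ 2) ≤ 2 * ((1 + |ρ.im - t|) * ‖u - ρ‖) := by
          refine mul_le_mul e1 ?_ (by positivity) zero_le_two
          nlinarith [sq_abs (ρ.im - t), mul_le_mul_of_nonneg_left b2 (abs_nonneg (ρ.im - t))]
      _ ≤ 2 * ((1 + 1 / δ) * ‖s - ρ‖ * ‖u - ρ‖) := by gcongr
      _ ≤ 4 / δ * (‖s - ρ‖ * ‖u - ρ‖) := by
          have : 1 + 1 / δ ≤ 2 / δ := by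
            have := (one_le_div hδ).2 hδ1
            rw [show 2 / δ = 1 / δ + 1 / δ by ring]
            linarith
          calc 2 * ((1 + 1 / δ) * ‖s - ρ‖ * ‖u - ρ‖)
              ≤ 2 * (2 / δ * ‖s - ρ‖ * ‖u - ρ‖) := by gcongr
            _ = _ := by ring
  obtain ⟨a0, a1⟩ := gShift_mem χ
  have hg1 := norm_gammaLog_le q (w := s + gShift χ) (by simp; linarith) (by simp; linarith)
  have hg2 := norm_gammaLog_le q (w := u + gShift χ) (by simp [hure]; linarith)
    (by simp [hure]; linarith)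
  rw [show (s + (gShift χ : ℂ)).im = t by simp [ht]] at hg1
  rw [show (u + (gShift χ : ℂ)).im = t by simp [huim]] at hg2
  have hu2 : ‖negL χ u‖ ≤ A := hu ▸ h2 q χ t
  have e : negL χ s = FA.Levinson.gammaLog (s + gShift χ) -
      FA.Levinson.gammaLog (u + gShift χ) + negL χ u - (lLog χ s - lLog χ u) := by
    rw [negL_eq hχ (by linarith) hc, negL_eq hχ (by rw [hure]; norm_num) hcu]
    ring
  rw [e, ← ht]
  refine (norm_sub_le _ _).trans ((add_le_add ((norm_add_le _ _).trans (add_le_add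
    ((norm_sub_le _ _).trans (add_le_add hg1 hg2)) hu2)) hdiff).trans ?_)
  have q1 := (qLog_ge q t).1
  have hd1 : qLog q t ≤ qLog q t / δ := le_div_self (by linarith) hδ hδ1
  have hA1 : A ≤ A * (qLog q t / δ) := le_mul_of_one_le_right hA (by linarith)
  rw [show (40 + A + 4 * C) * qLog q t / δ =
    40 * (qLog q t / δ) + A * (qLog q t / δ) + 4 / δ * (C * qLog q t) by ring]
  linarith

end FA.GRHProgressions

end
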