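import Fermat.Agent.GRHProgressions.Explicit

/-!
# `ψ (x, χ) = O (√x log² (q x))` under the Riemann hypothesis

The first difference of the explicit formula with step `1`.
-/

set_option autoImplicit false

noncomputable section

namespace FA.GRHProgressions

open Complex MeasureTheory Filter Set
open DirichletCharacter (LFunction completedLFunction)
open FA.DirichletZeroCount FA.DirichletLandau FA.DirichletHadamard
open FA.Gallagher (zeroPow psiOneChar psiChar)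
open scoped Real

variable {q : ℕ} [NeZero q] {χ : DirichletCharacter ℂ q}

theorem two_mul_rpow_le {y σ : ℝ} (hy : 0 ≤ y) (h1 : σ ≤ 1) :
    (2 * y) ^ σ ≤ 2 * y ^ σ := by
  rw [Real.mul_rpow two_pos.le hy]
  exact mul_le_mul_of_nonneg_right (Real.rpow_le_self_of_one_le one_le_two h1)
    (Real.rpow_nonneg hy _)

/-- The two bounds for the difference of the kernel. -/
theorem norm_zeroPow_diff_le {s : ℂ} (h0 : 1 / 4 ≤ s.re) (h1 : s.re ≤ 1) {y : ℝ} (hy : 1 ≤ y) :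
    ‖zeroPow (y + 1) s - zeroPow y s‖ ≤ 10 * y ^ s.re / (1 + |s.im|) ∧
      ‖zeroPow (y + 1) s - zeroPow y s‖ ≤ 200 * y ^ s.re * y / (1 + |s.im|) ^ 2 := by
  have hy0 : 0 < y := by linarith
  have hn0 : 0 < ‖s‖ := by linarith [one_add_im_le h0, abs_nonneg s.im]
  have hn1 : 0 < ‖s + 1‖ := hn0.trans_le (norm_le_norm_add_one (by linarith))
  have hpow : ∀ t : ℝ, 0 < t → t ≤ 2 * y → t ^ s.re ≤ 2 * y ^ s.re := fun t ht ht2 =>
    (Real.rpow_le_rpow ht.le ht2 (by linarith)).trans (two_mul_rpow_le hy0.le h1)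
  rw [zeroPow, zeroPow, ← sub_div, norm_div, norm_mul]
  constructor
  · have hne : s + 1 ≠ 0 := norm_pos_iff.1 hn1
    have h := (convex_Icc y (y + 1)).norm_image_sub_le_of_norm_hasDerivWithin_le
      (f := fun t : ℝ => (t : ℂ) ^ (s + 1)) (f' := fun t : ℝ => (s + 1) * (t : ℂ) ^ (s + 1 - 1))
      (C := ‖s + 1‖ * (2 * y ^ s.re)) (fun t ht => (hasDerivAt_ofReal_cpow_const
        (by linarith [ht.1]) hne).hasDerivWithinAt)
      (fun t ht => ?_) (Set.left_mem_Icc.2 (by linarith)) (Set.right_mem_Icc.2 (by linarith))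
    · rw [Real.norm_eq_abs, add_sub_cancel_left, abs_one, mul_one] at h
      refine (div_le_div_of_nonneg_right h (by positivity)).trans ?_
      rw [mul_comm ‖s‖, mul_div_mul_left _ _ hn1.ne', div_le_div_iff₀ hn0 (by positivity),
        show 10 * y ^ s.re * ‖s‖ = 2 * y ^ s.re * (5 * ‖s‖) by ring]
      exact mul_le_mul_of_nonneg_left (one_add_im_le h0) (by positivity)
    · rw [add_sub_cancel_right, norm_mul, norm_cpow_eq_rpow_re_of_pos (by linarith [ht.1])]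
      exact mul_le_mul_of_nonneg_left (hpow t (by linarith [ht.1]) (by linarith [ht.2]))
        (norm_nonneg _)
  · have e : ∀ t : ℝ, 0 < t → t ≤ 2 * y → ‖(t : ℂ) ^ (s + 1)‖ ≤ 4 * y ^ s.re * y :=
      fun t ht ht2 => by
        rw [norm_cpow_eq_rpow_re_of_pos ht, add_re, one_re, Real.rpow_add_one ht.ne']
        exact (mul_le_mul (hpow t ht ht2) ht2 ht.le (by positivity)).trans (le_of_eq (by ring))
    refine (div_le_div_of_nonneg_right ((norm_sub_le _ _).trans (add_le_add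
      (e (y + 1) (by linarith) (by linarith)) (e y hy0 (by linarith)))) (by positivity)).trans ?_
    rw [div_eq_mul_one_div, show 200 * y ^ s.re * y / (1 + |s.im|) ^ 2 =
      (4 * y ^ s.re * y + 4 * y ^ s.re * y) * (25 / (1 + |s.im|) ^ 2) by ring]
    exact mul_le_mul_of_nonneg_left (inv_kernel_le h0) (by positivity)

/-- The integral on `re = 1/4`. -/
theorem exists_line_diff : ∃ C, 0 ≤ C ∧ ∀ (q : ℕ) [NeZero q]
    (χ : DirichletCharacter ℂ q), χ.IsPrimitive → χ ≠ 1 → GRHFor χ → ∀ y : ℝ, 1 ≤ y →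
      ‖(∫ t : ℝ, intF χ (y + 1) (((1 / 4 : ℝ) : ℂ) + t * I)) -
        ∫ t : ℝ, intF χ y (((1 / 4 : ℝ) : ℂ) + t * I)‖ ≤ C * (Real.log q + 10) * √y := by
  obtain ⟨K, hK, hneg⟩ := exists_negL_quarter
  obtain ⟨J, hJ⟩ : ∃ J, J = ∫ t : ℝ, (1 + |t|) ^ (-(9 / 8) : ℝ) := ⟨_, rfl⟩
  have hJ0 : 0 ≤ J := hJ ▸ integral_nonneg fun t => by positivity
  refine ⟨200 * K * J, by positivity, fun q _ χ hp hχ hG y hy => ?_⟩
  have hy0 : 0 < y := by linarith
  have i1 := integrable_line_quarter hp hχ hG (show 0 < y + 1 by linarith)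
  have i2 := integrable_line_quarter hp hχ hG hy0
  rw [← integral_sub i1 i2]
  refine (norm_integral_le_of_norm_le ((integrable_bracket
    (show (1 : ℝ) < 9 / 8 by norm_num)).const_mul (200 * √y * (K * (Real.log q + 10))))
    (Eventually.of_forall fun t => ?_)).trans (le_of_eq ?_)
  · obtain ⟨s, hs⟩ : ∃ s : ℂ, s = ((1 / 4 : ℝ) : ℂ) + t * I := ⟨_, rfl⟩
    have hre : s.re = 1 / 4 := by simp [hs]
    have him : s.im = t := by simp [hs]
    obtain ⟨a, b⟩ := norm_zeroPow_diff_le (s := s) (by rw [hre]) (by rw [hre]; norm_num) hy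
    rw [hre, him] at a b
    obtain ⟨w, hw⟩ : ∃ w, w = 1 + |t| := ⟨_, rfl⟩
    have hw0 : 0 < w := by rw [hw]; positivity
    rw [← hw] at a b
    obtain ⟨d, hd⟩ : ∃ d, d = ‖zeroPow (y + 1) s - zeroPow y s‖ := ⟨_, rfl⟩
    rw [← hd] at a b
    have hd0 : 0 ≤ d := hd ▸ norm_nonneg _
    have a' : d ≤ 200 * y ^ (1 / 4 : ℝ) / w :=
      a.trans (div_le_div_of_nonneg_right (by nlinarith [Real.rpow_nonneg hy0.le (1 / 4 : ℝ)])
        hw0.le)
    have hmin : d ≤ 200 * √y * w ^ (-(5 / 4) : ℝ) := by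
      calc d = d ^ (3 / 4 : ℝ) * d ^ (1 / 4 : ℝ) := by
            rw [← Real.rpow_add_of_nonneg hd0 (by norm_num) (by norm_num)]
            norm_num
        _ ≤ (200 * y ^ (1 / 4 : ℝ) / w) ^ (3 / 4 : ℝ) *
            (200 * y ^ (1 / 4 : ℝ) * y / w ^ 2) ^ (1 / 4 : ℝ) :=
          mul_le_mul (Real.rpow_le_rpow hd0 a' (by norm_num))
            (Real.rpow_le_rpow hd0 b (by norm_num)) (Real.rpow_nonneg hd0 _)
            (Real.rpow_nonneg (by positivity) _)
        _ = (200 * y ^ (1 / 4 : ℝ) / w) * (y / w) ^ (1 / 4 : ℝ) := by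
            rw [show 200 * y ^ (1 / 4 : ℝ) * y / w ^ 2 = 200 * y ^ (1 / 4 : ℝ) / w * (y / w) by
              ring, Real.mul_rpow (by positivity) (by positivity), ← mul_assoc,
              ← Real.rpow_add (by positivity)]
            norm_num
        _ = _ := by
            rw [Real.div_rpow hy0.le hw0.le, Real.sqrt_eq_rpow, Real.rpow_neg hw0.le,
              show (1 / 2 : ℝ) = 1 / 4 + 1 / 4 by norm_num, Real.rpow_add hy0,
              show (5 / 4 : ℝ) = 1 + 1 / 4 by norm_num, Real.rpow_add hw0, Real.rpow_one]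
            field_simp
    have hn := hneg q χ hp hχ hG t
    rw [← hs] at hn
    rw [← hs, intF, intF, ← sub_mul, norm_mul, ← hd]
    refine (mul_le_mul hmin (hn.trans (le_of_eq (by rw [← hw]))) (norm_nonneg _)
      (by positivity)).trans (le_of_eq ?_)
    rw [← hw, show (-(9 / 8) : ℝ) = -(5 / 4) + 1 / 8 by norm_num, Real.rpow_add hw0]
    ring
  · rw [integral_const_mul, ← hJ]
    ring

/-- The sum over the zeros. -/
theorem exists_sum_diff : ∃ C, 0 ≤ C ∧ ∀ (q : ℕ) [NeZero q]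
    (χ : DirichletCharacter ℂ q), χ.IsPrimitive → χ ≠ 1 → GRHFor χ → ∀ y : ℝ, 1 ≤ y →
      ‖(∑' ρ, (lMult χ ρ : ℂ) * zeroPow (y + 1) ρ) - ∑' ρ, (lMult χ ρ : ℂ) * zeroPow y ρ‖ ≤
        C * √y * qLog q (y + 1) ^ 2 := by
  obtain ⟨C₁, h1, hhead⟩ := exists_head_sum
  obtain ⟨C₂, h2, htail⟩ := exists_tail_sum
  refine ⟨10 * C₁ + 200 * C₂, by positivity, fun q _ χ hp hχ hG y hy => ?_⟩
  have hy0 : 0 < y := by linarith
  have s1 := (summable_zeroPow hp hχ hG (show 0 < y + 1 by linarith)).of_norm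
  have s2 := (summable_zeroPow hp hχ hG hy0).of_norm
  obtain ⟨N, hN⟩ : ∃ N, N = ⌈y⌉₊ := ⟨_, rfl⟩
  have hN1 : y ≤ N := hN ▸ Nat.le_ceil y
  have hN2 : (N : ℝ) ≤ y + 1 := hN ▸ (Nat.ceil_lt_add_one hy0.le).le
  have hq0 : (0 : ℝ) < q := Nat.cast_pos.2 (NeZero.pos q)
  have hL : qLog q N ≤ qLog q (y + 1) := by
    refine Real.log_le_log (by positivity) ?_
    rw [Nat.abs_cast, abs_of_nonneg (by linarith)]
    exact mul_le_mul_of_nonneg_left (by linarith) hq0.le
  obtain ⟨q1, -⟩ := qLog_ge q N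
  rw [← Summable.tsum_sub s1 s2]
  refine (norm_tsum_le_tsum_norm (s1.sub s2).norm).trans
    (Real.tsum_le_of_sum_le (fun ρ => norm_nonneg _) fun S => ?_)
  classical
  rw [← Finset.sum_filter_add_sum_filter_not S fun ρ => |ρ.im| ≤ N, add_mul (10 * C₁), add_mul]
  have hterm : ∀ ρ : ℂ, ‖(lMult χ ρ : ℂ) * zeroPow (y + 1) ρ - (lMult χ ρ : ℂ) * zeroPow y ρ‖ ≤
      10 * √y * ((lMult χ ρ : ℝ) / (1 + |ρ.im|)) ∧
      ‖(lMult χ ρ : ℂ) * zeroPow (y + 1) ρ - (lMult χ ρ : ℂ) * zeroPow y ρ‖ ≤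
        200 * √y * y * ((lMult χ ρ : ℝ) / (1 + |ρ.im|) ^ 2) := fun ρ => by
    by_cases hm : lMult χ ρ = 0
    · simp [hm]
    have hre := re_eq_half hp hχ hG (mem_strip_of_mult hp hχ hm).1
    obtain ⟨a, b⟩ := norm_zeroPow_diff_le (s := ρ) (by rw [hre]; norm_num)
      (by rw [hre]; norm_num) hy
    rw [hre, ← Real.sqrt_eq_rpow] at a b
    rw [← mul_sub, norm_mul, Complex.norm_natCast]
    constructor
    · exact (mul_le_mul_of_nonneg_left a (Nat.cast_nonneg _)).trans (le_of_eq (by ring))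
    · exact (mul_le_mul_of_nonneg_left b (Nat.cast_nonneg _)).trans (le_of_eq (by ring))
  refine add_le_add ?_ ?_
  · refine (Finset.sum_le_sum fun ρ _ => (hterm ρ).1).trans ?_
    rw [← Finset.mul_sum]
    refine (mul_le_mul_of_nonneg_left (hhead q χ hp hχ N _ fun ρ hρ =>
      (Finset.mem_filter.1 hρ).2) (by positivity)).trans ?_
    calc 10 * √y * (C₁ * qLog q N ^ 2) ≤ 10 * √y * (C₁ * qLog q (y + 1) ^ 2) := by
          gcongr
      _ = _ := by ring
  · refine (Finset.sum_le_sum fun ρ _ => (hterm ρ).2).trans ?_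
    rw [← Finset.mul_sum]
    refine (mul_le_mul_of_nonneg_left (htail q χ hp hχ N _ fun ρ hρ =>
      (not_le.1 (Finset.mem_filter.1 hρ).2).le) (by positivity)).trans ?_
    have hl : qLog q N ≤ qLog q (y + 1) ^ 2 :=
      hL.trans (le_self_pow₀ (by linarith) two_ne_zero)
    calc 200 * √y * y * (C₂ * qLog q N / ((N : ℝ) + 1))
        = 200 * C₂ * √y * qLog q N * (y / ((N : ℝ) + 1)) := by ring
      _ ≤ 200 * C₂ * √y * qLog q N * 1 := mul_le_mul_of_nonneg_left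
          ((div_le_one (by positivity)).2 (by linarith))
          (mul_nonneg (by positivity) (by linarith))
      _ ≤ 200 * C₂ * √y * qLog q (y + 1) ^ 2 := by
          rw [mul_one]
          exact mul_le_mul_of_nonneg_left hl (by positivity)

theorem log_mul_facts (q : ℕ) [NeZero q] {x : ℝ} (hx : 2 ≤ x) :
    qLog q (x + 1) ≤ 3 * Real.log (q * x) ∧ Real.log (x + x) ≤ 2 * Real.log (q * x) ∧
      1 / 2 ≤ Real.log (q * x) := by
  have hq : (1 : ℝ) ≤ q := Nat.one_le_cast.2 NeZero.one_le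
  have hqx : 2 ≤ (q : ℝ) * x := by nlinarith
  refine ⟨?_, ?_, ?_⟩
  · rw [show (3 : ℝ) * Real.log (q * x) = Real.log ((q * x) ^ 3) by
      rw [Real.log_pow]; norm_num]
    refine Real.log_le_log (by positivity) ?_
    rw [abs_of_nonneg (by linarith), pow_three]
    have h4 : 4 ≤ (q * x) * (q * x) := by nlinarith
    nlinarith [mul_le_mul_of_nonneg_left h4 (show 0 ≤ (q : ℝ) * x by positivity),
      mul_le_mul_of_nonneg_left hx (show (0 : ℝ) ≤ q by linarith)]
  · rw [show (2 : ℝ) * Real.log (q * x) = Real.log ((q * x) ^ 2) by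
      rw [Real.log_pow]; norm_num]
    refine Real.log_le_log (by linarith) ?_
    nlinarith
  · linarith [Real.log_le_log two_pos hqx, Real.log_two_gt_d9]

/-- **`|ψ (x, χ)| ≤ C √x log² (q x)` on the Riemann hypothesis, `C` absolute.** -/
theorem exists_psiChar_primitive : ∃ C, 0 ≤ C ∧ ∀ (q : ℕ) [NeZero q]
    (χ : DirichletCharacter ℂ q), χ.IsPrimitive → χ ≠ 1 → GRHFor χ → ∀ x : ℝ, 2 ≤ x →
      ‖psiChar χ x‖ ≤ C * √x * Real.log (q * x) ^ 2 := by
  obtain ⟨C₁, h1, hline⟩ := exists_line_diff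
  obtain ⟨C₂, h2, hsum⟩ := exists_sum_diff
  refine ⟨42 * C₁ + 9 * C₂ + 8, by positivity, fun q _ χ hp hχ hG x hx => ?_⟩
  have hx0 : 1 ≤ x := by linarith
  obtain ⟨g1, g2, g3⟩ := log_mul_facts q hx
  obtain ⟨L, hL⟩ : ∃ L, L = Real.log (q * x) := ⟨_, rfl⟩
  rw [← hL] at g1 g2 g3 ⊢
  have hstep := FA.Gallagher.norm_psiOneChar_step_le χ (y := x) (d := 1) (X := x + x) hx0
    zero_le_one (by linarith)
  rw [ofReal_one, one_mul, one_mul] at hstep
  have hA := hline q χ hp hχ hG x hx0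
  have hB := hsum q χ hp hχ hG x hx0
  rw [psiOneChar_eq_sum hp hχ hG (show 1 ≤ x + 1 by linarith),
    psiOneChar_eq_sum hp hχ hG hx0] at hstep
  obtain ⟨a, ha⟩ : ∃ a : ℂ, a = (1 / (2 * π) : ℂ) *
      ((∫ t : ℝ, intF χ (x + 1) (((1 / 4 : ℝ) : ℂ) + t * I)) -
        ∫ t : ℝ, intF χ x (((1 / 4 : ℝ) : ℂ) + t * I)) -
      ((∑' ρ, (lMult χ ρ : ℂ) * zeroPow (x + 1) ρ) - ∑' ρ, (lMult χ ρ : ℂ) * zeroPow x ρ) :=
    ⟨_, rfl⟩
  have e : ‖a - psiChar χ x‖ ≤ 2 * Real.log (x + x) := by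
    refine le_trans (le_of_eq (congrArg norm ?_)) (hstep.trans_eq (by ring))
    rw [ha]
    ring
  have hna : ‖a‖ ≤ C₁ * (Real.log q + 10) * √x + C₂ * √x * qLog q (x + 1) ^ 2 := by
    rw [ha]
    refine (norm_sub_le _ _).trans (add_le_add ?_ hB)
    rw [norm_mul]
    refine (mul_le_of_le_one_left (norm_nonneg _) ?_).trans hA
    rw [norm_div, norm_one, norm_mul, Complex.norm_two, Complex.norm_real,
      Real.norm_of_nonneg Real.pi_pos.le, div_le_one (by positivity)]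
    linarith [Real.pi_gt_three]
  have h3 : qLog q (x + 1) ^ 2 ≤ 9 * L ^ 2 := by
    have q1 := (qLog_ge q (x + 1)).1
    calc qLog q (x + 1) ^ 2 ≤ (3 * L) ^ 2 := pow_le_pow_left₀ (by linarith) g1 2
      _ = _ := by ring
  have h4 : Real.log q + 10 ≤ 42 * L ^ 2 := by
    have hl : Real.log q ≤ L := by
      rw [hL]
      exact Real.log_le_log (Nat.cast_pos.2 (NeZero.pos q))
        (le_mul_of_one_le_right (Nat.cast_nonneg q) hx0)
    nlinarith
  have hs : 1 ≤ √x := Real.one_le_sqrt.2 hx0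
  have t1 := mul_le_mul_of_nonneg_left h4 (mul_nonneg h1 (Real.sqrt_nonneg x))
  have t2 := mul_le_mul_of_nonneg_left h3 (mul_nonneg h2 (Real.sqrt_nonneg x))
  have t3 : 2 * Real.log (x + x) ≤ 8 * (√x * L ^ 2) := by
    have : L ^ 2 ≤ √x * L ^ 2 := le_mul_of_one_le_left (sq_nonneg L) hs
    nlinarith
  calc ‖psiChar χ x‖ ≤ ‖a‖ + ‖a - psiChar χ x‖ := norm_le_norm_add_norm_sub _ _
    _ ≤ _ := by linarith

end FA.GRHProgressions

end
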